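import Fermat.Agent.EC.Rep.Tate.Curve
import Fermat.Agent.Arith.Places
import Fermat.Agent.TwoAdic.Forms.Iface
import Fermat.Prelude.Def_WeierstrassCurve_ConductorLevel

/-!
# The two-adic modularity theorem: curves, residual representation, Selmer classes

`IsClassC` is the local condition on the curves to which the two-adic theorem applies. For such a
curve `rho` is the representation on the two-adic Tate module, `rhoBar` its reduction, and
`IsSelmerClass` the local conditions on one-cocycles with values in `E[2]`.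
-/

set_option autoImplicit false

noncomputable section

open WeierstrassCurve
open scoped NumberTheorySymbols

namespace Fermat.Agent.TwoAdic

open Arith (QBar GQ)

/-- Negative discriminant, good ordinary at `2`, `Δ ≡ 5 (mod 8)`, all valuations of `Δ` odd. -/
structure IsClassC (W : WeierstrassCurve ℤ) : Prop where
  semistable : W.IsSemistableModel
  Δ_neg : W.Δ < 0
  Δ_mod_eight : W.Δ % 8 = 5
  ap_two_odd : Odd (W.apOfModel 2)
  odd_valuation : ∀ q : ℕ, q.Prime → (q : ℤ) ∣ W.Δ → Odd (padicValInt q W.Δ)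

theorem IsClassC.Δ_ne_zero {W : WeierstrassCurve ℤ} (h : IsClassC W) : W.Δ ≠ 0 := h.Δ_neg.ne

/-- Two by two matrices. -/
abbrev M2 (A : Type) : Type := Matrix (Fin 2) (Fin 2) A

/-- Vectors of length two with the action of a representation. -/
def MatMod {A : Type} [CommRing A] (_r : GQ →* M2 A) : Type := Fin 2 → A

section MatMod

variable {A : Type} [CommRing A] (r : GQ →* M2 A)

instance : AddCommGroup (MatMod r) := inferInstanceAs (AddCommGroup (Fin 2 → A))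

instance : DistribMulAction GQ (MatMod r) where
  smul σ v := (r σ).mulVec v
  one_smul v := by
    show (r 1).mulVec _ = _
    rw [map_one]
    exact Matrix.one_mulVec _
  mul_smul σ τ v := by
    show (r (σ * τ)).mulVec _ = (r σ).mulVec ((r τ).mulVec _)
    rw [map_mul, Matrix.mulVec_mulVec]
  smul_zero σ := Matrix.mulVec_zero _
  smul_add σ v w := Matrix.mulVec_add _ _ _

/-- The representation is trivial on the Galois group of some number field. -/
def IsFiniteLevel : Prop :=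
  ∃ L : IntermediateField ℚ QBar, FiniteDimensional ℚ L ∧
    ∀ σ : GQ, (∀ x ∈ L, σ x = x) → r σ = 1

/-- The representation modulo an ideal. -/
def modIdeal (I : Ideal A) : GQ →* M2 (A ⧸ I) :=
  (Ideal.Quotient.mk I).mapMatrix.toMonoidHom.comp r

end MatMod

variable {W : WeierstrassCurve ℤ}

/-- The representation on the two-adic Tate module in the chosen basis. -/
def rho (W : WeierstrassCurve ℤ) (hΔ : W.Δ ≠ 0) : GQ →* M2 ℤ_[2] :=
  (LinearMap.toMatrixAlgEquiv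
    (Module.Basis.finTwoProd ℤ_[2])).toMonoidHom.comp (EC.Rep.tateRep W 2 hΔ).ρ

/-- The representation on `E[2 ^ n]`. -/
def rhoPow (W : WeierstrassCurve ℤ) (hΔ : W.Δ ≠ 0) (n : ℕ) : GQ →* M2 (ZMod (2 ^ n)) :=
  (PadicInt.toZModPow (p := 2) n).mapMatrix.toMonoidHom.comp (rho W hΔ)

/-- The representation on `E[2]`. -/
def rhoBar (W : WeierstrassCurve ℤ) (hΔ : W.Δ ≠ 0) : GQ →* M2 (ZMod 2) :=
  (PadicInt.toZMod (p := 2)).mapMatrix.toMonoidHom.comp (rho W hΔ)

/-- A square root of `-N`. -/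
def sqrtNeg (N : ℕ) : QBar := (IsAlgClosed.exists_pow_nat_eq (-(N : QBar)) two_pos).choose

theorem sq_sqrtNeg (N : ℕ) : sqrtNeg N ^ 2 = -(N : QBar) :=
  (IsAlgClosed.exists_pow_nat_eq (-(N : QBar)) two_pos).choose_spec

/-- The Galois group of `ℚ(√-N)`. -/
def GK (N : ℕ) : Subgroup GQ := MulAction.stabilizer GQ (sqrtNeg N)

/-- Characters of `GK N` unramified everywhere, of finite level and `2`-power order, have image of
cardinality at most `B`. -/
def UnramifiedCharBound (N B : ℕ) : Prop :=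
  ∀ (H : Type) [CommGroup H] [Finite H], IsPGroup 2 H → ∀ χ : GK N →* H,
    (∃ L : IntermediateField ℚ QBar, FiniteDimensional ℚ L ∧
      ∀ σ : GK N, (∀ x ∈ L, (σ : GQ) x = x) → χ σ = 1) →
    (∀ ℓ : ℕ, ℓ.Prime → ∀ A : ValuationSubring QBar, A.LiesOverPrime ℓ →
      ∀ σ : GK N, (σ : GQ) ∈ A.inertiaSubgroupIn ℚ → χ σ = 1) →
    Nat.card χ.range ≤ B

/-- The inertia elements fixing the square roots of the units of the inertia field. -/
def IsPeuKernel (A : ValuationSubring QBar) (σ : GQ) : Prop :=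
  σ ∈ A.inertiaSubgroupIn ℚ ∧ ∀ y : QBar, A.valuation y = 1 →
    (∀ τ ∈ A.inertiaSubgroupIn ℚ, τ (y ^ 2) = y ^ 2) → σ y = y

/-- An auxiliary prime of depth `n`: modulo `2 ^ n` the Frobenius of `E[2 ^ n]` has eigenvalues
`1, 3` (so `q ≡ 3` and `a_q ≡ 4`), it is nontrivial on `E[2]`, and the prime is inert in
`ℚ(√-N)`. Thus `q + 1` is exactly divisible by `4` for `n ≥ 3`. -/
structure IsAuxPrime (W : WeierstrassCurve ℤ) (hΔ : W.Δ ≠ 0) (n q : ℕ) : Prop where
  prime : q.Prime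
  ne_two : q ≠ 2
  good : W.IsGoodPrimeFor q
  inert : J(-(W.conductorLevel : ℤ) | q) = -1
  q_mod : ((2 ^ n : ℕ) : ℤ) ∣ (q : ℤ) - 3
  ap_mod : ((2 ^ n : ℕ) : ℤ) ∣ W.apOfModel q - 4
  frob_invol : ∀ A : ValuationSubring QBar, A.LiesOverPrime q → ∀ σ : GQ,
    A.IsFrobeniusAt σ q → rhoBar W hΔ σ * rhoBar W hΔ σ = 1 ∧ rhoBar W hΔ σ ≠ 1

/-- A cocycle with values in `E[2]` satisfying the local conditions for the auxiliary set `Q`. -/
structure IsSelmerClass (W : WeierstrassCurve ℤ) (hΔ : W.Δ ≠ 0) (Q : Finset ℕ)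
    (φ : GQ → Fin 2 → ZMod 2) : Prop where
  cocycle : ∀ σ τ : GQ, φ (σ * τ) = φ σ + (rhoBar W hΔ σ).mulVec (φ τ)
  finiteLevel : ∃ L : IntermediateField ℚ QBar, FiniteDimensional ℚ L ∧
    ∀ σ : GQ, (∀ x ∈ L, σ x = x) → φ σ = 0
  unramified : ∀ ℓ : ℕ, ℓ.Prime → ℓ ≠ 2 → W.IsGoodPrimeFor ℓ → ℓ ∉ Q →
    ∀ A : ValuationSubring QBar, A.LiesOverPrime ℓ → ∀ τ ∈ A.inertiaSubgroupIn ℚ, φ τ = 0
  bad : ∀ ℓ : ℕ, ℓ.Prime → (ℓ : ℤ) ∣ W.Δ → ∀ A : ValuationSubring QBar, A.LiesOverPrime ℓ →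
    ∀ τ ∈ A.inertiaSubgroupIn ℚ, ∃ v, (rhoBar W hΔ τ - 1).mulVec v = φ τ
  aux : ∀ q ∈ Q, ∀ A : ValuationSubring QBar, A.LiesOverPrime q → ∀ σ : GQ,
    A.IsFrobeniusAt σ q → (rhoBar W hΔ σ).mulVec (φ σ) = φ σ ∧
      ∀ τ ∈ A.inertiaSubgroupIn ℚ, (rhoBar W hΔ σ).mulVec (φ τ) = φ τ
  two : ∀ A : ValuationSubring QBar, A.LiesOverPrime 2 → ∀ σ : GQ, A.IsFrobeniusAt σ 2 →
    ∀ τ ∈ A.inertiaSubgroupIn ℚ,
      (rhoBar W hΔ σ).mulVec (φ τ) = φ τ ∧ (IsPeuKernel A τ → φ τ = 0)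

/-- The cocycle is a coboundary. -/
def IsCoboundary (W : WeierstrassCurve ℤ) (hΔ : W.Δ ≠ 0) (φ : GQ → Fin 2 → ZMod 2) : Prop :=
  ∃ v, ∀ σ : GQ, φ σ = (rhoBar W hΔ σ - 1).mulVec v

/-- All classes for `Q` are trivial. -/
def SelmerTrivial (W : WeierstrassCurve ℤ) (hΔ : W.Δ ≠ 0) (Q : Finset ℕ) : Prop :=
  ∀ φ, IsSelmerClass W hΔ Q φ → IsCoboundary W hΔ φ

end Fermat.Agent.TwoAdic
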