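import Fermat.Agent.TwoAdic.Galois.TwoTorsion
import Fermat.Agent.EC.Rep.Ramification
import Mathlib.FieldTheory.Galois.Infinite

/-!
# The residual representation of a class C curve

`rhoBar` is onto `SL₂(𝔽₂)`, has a transposition in inertia at every bad prime, its transpositions
move `√-N`, and a Frobenius transposition at a good odd prime makes it inert in `ℚ(√-N)`.
-/

set_option autoImplicit false

noncomputable section

open WeierstrassCurve Matrix
open scoped NumberTheorySymbols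

namespace Fermat.Agent.TwoAdic

open Arith (QBar GQ)

variable {W : WeierstrassCurve ℤ}

theorem IsClassC.isGoodPrimeFor_two (hW : IsClassC W) : W.IsGoodPrimeFor 2 := fun h => by
  have h' : (2 : ℤ) ∣ W.Δ := h
  have := hW.Δ_mod_eight
  omega

theorem IsClassC.ne_two_of_dvd (hW : IsClassC W) {ℓ : ℕ} (h : (ℓ : ℤ) ∣ W.Δ) : ℓ ≠ 2 := by
  rintro rfl
  exact hW.isGoodPrimeFor_two h

theorem IsClassC.exists_bad_prime (hW : IsClassC W) :
    ∃ ℓ : ℕ, ℓ.Prime ∧ (ℓ : ℤ) ∣ W.Δ := by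
  have h1 : W.Δ.natAbs ≠ 1 := by
    have := hW.Δ_neg
    have := hW.Δ_mod_eight
    omega
  obtain ⟨p, hp, hpd⟩ := Nat.exists_prime_and_dvd h1
  exact ⟨p, hp, Int.natCast_dvd.mpr hpd⟩

/-- The discriminant is `-N` times a square. -/
theorem IsClassC.exists_Δ_eq (hW : IsClassC W) :
    ∃ k : ℕ, k ≠ 0 ∧ W.Δ = -((W.conductorLevel : ℤ) * (k : ℤ) ^ 2) := by
  set n := W.Δ.natAbs with hn
  have hn0 : n ≠ 0 := Int.natAbs_ne_zero.mpr hW.Δ_ne_zero
  refine ⟨∏ p ∈ n.primeFactors, p ^ (n.factorization p / 2),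
    Finset.prod_ne_zero_iff.mpr fun p hp => pow_ne_zero _ (Nat.prime_of_mem_primeFactors hp).ne_zero,
    ?_⟩
  have h1 : n = W.conductorLevel * (∏ p ∈ n.primeFactors, p ^ (n.factorization p / 2)) ^ 2 := by
    rw [conductorLevel, ← hn, Nat.radical_eq_prod_primeFactors, ← Finset.prod_pow,
      ← Finset.prod_mul_distrib]
    conv_lhs => rw [← Nat.prod_factorization_pow_eq_self hn0]
    rw [Nat.prod_factorization_eq_prod_primeFactors]
    refine Finset.prod_congr rfl fun p hp => ?_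
    obtain ⟨hpp, hpd, -⟩ := Nat.mem_primeFactors.mp hp
    obtain ⟨j, hj⟩ := hW.odd_valuation p hpp (Int.natCast_dvd.mpr hpd)
    have hf : n.factorization p = 2 * j + 1 := by
      rw [Nat.factorization_def _ hpp, ← hj]
      rfl
    rw [hf, ← pow_mul, ← pow_succ', show (2 * j + 1) / 2 * 2 + 1 = 2 * j + 1 by omega]
  have h2 : W.Δ = -(n : ℤ) := by
    have := hW.Δ_neg
    omega
  rw [h2]
  exact congrArg (fun m : ℤ => -m) (by exact_mod_cast h1)

/-- A transposition and an element of order three generate `SL₂(𝔽₂)`. -/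
theorem m2_generated (T : M2 (ZMod 2)) (hT : T.det = 1) (hTT : T * T = 1) (hT1 : T ≠ 1)
    (S : M2 (ZMod 2)) (hS : S.det = 1) (hSS : S * S ≠ 1) (Z : M2 (ZMod 2)) (hZ : Z.det = 1) :
    Z ∈ [1, S, S * S, T, T * S, T * (S * S)] := by
  rcases m2_det_one_cases S hS with rfl | rfl | rfl | rfl | rfl | rfl
  all_goals first | exact absurd (by decide) hSS | skip
  all_goals rcases m2_det_one_cases T hT with rfl | rfl | rfl | rfl | rfl | rfl
  all_goals first | exact absurd rfl hT1 | exact absurd hTT (by decide) | skip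
  all_goals rcases m2_det_one_cases Z hZ with rfl | rfl | rfl | rfl | rfl | rfl
  all_goals decide

variable (hW : IsClassC W)
include hW

theorem exists_sqrtDisc_eq : ∃ c : QBar, c ≠ 0 ∧ (∀ σ : GQ, σ c = c) ∧
    sqrtDisc hW.Δ_ne_zero = c * sqrtNeg W.conductorLevel := by
  obtain ⟨k, hk, hΔ⟩ := hW.exists_Δ_eq
  have h2 : sqrtDisc hW.Δ_ne_zero ^ 2 = ((k : QBar) * sqrtNeg W.conductorLevel) ^ 2 := by
    rw [sqrtDisc_sq, mul_pow, sq_sqrtNeg, hΔ]
    push_cast
    ring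
  rcases sq_eq_sq_iff_eq_or_eq_neg.mp h2 with h | h
  · exact ⟨k, Nat.cast_ne_zero.mpr hk, fun σ => map_natCast σ k, h⟩
  · refine ⟨-(k : QBar), neg_ne_zero.mpr (Nat.cast_ne_zero.mpr hk),
      fun σ => by rw [map_neg, map_natCast], ?_⟩
    rw [h, neg_mul]

/-- A transposition moves `√-N`. -/
theorem smul_sqrtNeg_of_involution {σ : GQ} (h1 : rhoBar W hW.Δ_ne_zero σ ≠ 1)
    (h2 : rhoBar W hW.Δ_ne_zero σ * rhoBar W hW.Δ_ne_zero σ = 1) :
    σ (sqrtNeg W.conductorLevel) = -sqrtNeg W.conductorLevel := by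
  obtain ⟨c, hc, hfix, he⟩ := exists_sqrtDisc_eq hW
  have h := smul_sqrtDisc_of_involution hW.Δ_ne_zero h1 h2
  rw [he, map_mul, hfix, ← mul_neg] at h
  exact mul_left_cancel₀ hc h

theorem smul_sqrtNeg_of_eq_one {σ : GQ} (h : rhoBar W hW.Δ_ne_zero σ = 1) :
    σ (sqrtNeg W.conductorLevel) = sqrtNeg W.conductorLevel := by
  obtain ⟨c, hc, hfix, he⟩ := exists_sqrtDisc_eq hW
  have h' := smul_sqrtDisc_of_eq_one hW.Δ_ne_zero h
  rw [he, map_mul, hfix] at h'
  exact mul_left_cancel₀ hc h'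

theorem rhoBar_mul_self_of_inertia {ℓ : ℕ} (hℓ : ℓ.Prime) (hℓ2 : ℓ ≠ 2)
    {A : ValuationSubring QBar} (hA : A.LiesOverPrime ℓ) {τ : GQ}
    (hτ : τ ∈ A.inertiaSubgroupIn ℚ) :
    rhoBar W hW.Δ_ne_zero τ * rhoBar W hW.Δ_ne_zero τ = 1 := by
  have h := congrArg (PadicInt.toZMod (p := 2)).mapMatrix
    (rho_sub_one_mul_self_of_inertia hW.Δ_ne_zero hW.semistable hℓ hℓ2 hA hτ)
  rw [map_mul, map_sub, map_one, map_zero] at h
  change (rhoBar W hW.Δ_ne_zero τ - 1) * (rhoBar W hW.Δ_ne_zero τ - 1) = 0 at h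
  revert h
  generalize rhoBar W hW.Δ_ne_zero τ = X
  revert X
  decide

/-- Inertia at a bad prime contains a transposition. -/
theorem exists_inertia_rhoBar_ne_one {ℓ : ℕ} (hℓ : ℓ.Prime) (hd : (ℓ : ℤ) ∣ W.Δ)
    {A : ValuationSubring QBar} (hA : A.LiesOverPrime ℓ) :
    ∃ τ ∈ A.inertiaSubgroupIn ℚ, rhoBar W hW.Δ_ne_zero τ ≠ 1 := by
  obtain ⟨L, hLfin, hL⟩ := isFiniteLevel_rhoPow hW.Δ_ne_zero 1
  obtain ⟨M, hM⟩ := (prime_dvd_conductorLevel_iff W hW.Δ_ne_zero hℓ).mpr hd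
  have hlM : ¬ ℓ ∣ M := fun h => hℓ.not_isUnit
    (W.squarefree_conductorLevel ℓ (hM ▸ mul_dvd_mul_left ℓ h))
  have hl0 : (ℓ : QBar) ≠ 0 := Nat.cast_ne_zero.mpr hℓ.ne_zero
  have hval : A.valuation ((sqrtNeg W.conductorLevel / ℓ) ^ 2 * ℓ) = 1 := by
    have e : (sqrtNeg W.conductorLevel / ℓ) ^ 2 * ℓ = -(M : QBar) := by
      rw [div_pow, sq_sqrtNeg, hM]
      push_cast
      field_simp
    rw [e, Valuation.map_neg]
    exact le_antisymm ((A.valuation_le_one_iff _).mpr (natCast_mem A M))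
      (not_lt.mp fun h => hlM ((Arith.natCast_mem_nonunits_iff hA hℓ M).mp
        ((A.mem_nonunits_iff).mpr h)))
  have hcard := EC.Rep.le_natCard_image_inertia (rhoBar W hW.Δ_ne_zero) L
    (fun σ hσ => by
      have : (1 : M2 (ZMod (2 ^ 1))).map (ZMod.castHom (dvd_pow_self 2 one_ne_zero) (ZMod 2)) = 1 :=
        Matrix.map_one _ (map_zero _) (map_one _)
      rw [← rhoPow_map hW.Δ_ne_zero (ZMod.castHom (dvd_pow_self 2 one_ne_zero) (ZMod 2)) σ,
        hL σ hσ, this])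
    hℓ hA (y := sqrtNeg W.conductorLevel / ℓ)
    (fun σ hσ => by rw [map_div₀, map_natCast, smul_sqrtNeg_of_eq_one hW hσ]) hval
  by_contra hall
  push Not at hall
  have hsub : rhoBar W hW.Δ_ne_zero '' (A.inertiaSubgroupIn ℚ : Set GQ) ⊆ {1} := by
    rintro _ ⟨τ, hτ, rfl⟩
    exact hall τ hτ
  have := Nat.card_mono (Set.finite_singleton _) hsub
  simp only [Nat.card_coe_set_eq, Set.ncard_singleton] at this hcard
  omega

/-- Some element has residual image of order `3`. -/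
theorem exists_rhoBar_mul_self_ne_one :
    ∃ σ : GQ, rhoBar W hW.Δ_ne_zero σ * rhoBar W hW.Δ_ne_zero σ ≠ 1 := by
  by_contra hall
  push Not at hall
  obtain ⟨v, hv, hfix⟩ : ∃ v : Fin 2 → ZMod 2, v ≠ 0 ∧
      ∀ σ : GQ, rhoBar W hW.Δ_ne_zero σ *ᵥ v = v := by
    have hfin : ∀ X : M2 (ZMod 2), X * X = 1 → ∃ v : Fin 2 → ZMod 2, v ≠ 0 ∧ X *ᵥ v = v := by
      decide
    have hpair : ∀ X Y : M2 (ZMod 2), X * X = 1 → Y * Y = 1 → X * Y * (X * Y) = 1 →
        X = 1 ∨ Y = 1 ∨ Y = X := by decide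
    by_cases h1 : ∀ σ : GQ, rhoBar W hW.Δ_ne_zero σ = 1
    · exact ⟨![1, 0], by decide, fun σ => by rw [h1, Matrix.one_mulVec]⟩
    push Not at h1
    obtain ⟨σ₀, h0⟩ := h1
    obtain ⟨v, hv, hfix⟩ := hfin _ (hall σ₀)
    refine ⟨v, hv, fun σ => ?_⟩
    rcases hpair _ _ (hall σ₀) (hall σ) (by rw [← map_mul]; exact hall _) with h | h | h
    · exact absurd h h0
    · rw [h, Matrix.one_mulVec]
    · rw [h, hfix]
  obtain ⟨x, hx⟩ := (InfiniteGalois.mem_range_algebraMap_iff_fixed (k := ℚ)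
    (twoX hW.Δ_ne_zero v)).mpr fun σ => by rw [smul_twoX, hfix]
  have h := twoX_root hW.Δ_ne_zero hv
  rw [← hx, eq_ratCast] at h
  refine cubic_ne_zero_rat hW x ((Rat.cast_eq_zero (α := QBar)).mp ?_)
  push_cast
  exact h

/-- Every element of `SL₂(𝔽₂)` is in the residual image. -/
theorem exists_rhoBar_eq {X : M2 (ZMod 2)} (hX : X.det = 1) :
    ∃ g : GQ, rhoBar W hW.Δ_ne_zero g = X := by
  obtain ⟨s, hs⟩ := exists_rhoBar_mul_self_ne_one hW
  obtain ⟨ℓ, hℓ, hd⟩ := hW.exists_bad_prime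
  obtain ⟨A, hA⟩ := Arith.exists_liesOverPrime hℓ
  obtain ⟨t, htI, ht⟩ := exists_inertia_rhoBar_ne_one hW hℓ hd hA
  have hmem := m2_generated _ (rhoBar_det hW.Δ_ne_zero t)
    (rhoBar_mul_self_of_inertia hW hℓ (hW.ne_two_of_dvd hd) hA htI) ht
    _ (rhoBar_det hW.Δ_ne_zero s) hs X hX
  simp only [List.mem_cons, List.not_mem_nil, or_false] at hmem
  rcases hmem with rfl | rfl | rfl | rfl | rfl | rfl
  · exact ⟨1, map_one _⟩
  · exact ⟨s, rfl⟩
  · exact ⟨s * s, map_mul _ _ _⟩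
  · exact ⟨t, rfl⟩
  · exact ⟨t * s, map_mul _ _ _⟩
  · exact ⟨t * (s * s), by rw [map_mul, map_mul]⟩

/-- A good odd prime with Frobenius a transposition is inert in `ℚ(√-N)`. -/
theorem jacobiSym_eq_neg_one_of_frobenius {q : ℕ} (hq : q.Prime) (hq2 : q ≠ 2)
    (hgood : W.IsGoodPrimeFor q) {A : ValuationSubring QBar} (hA : A.LiesOverPrime q) {σ : GQ}
    (hσ : A.IsFrobeniusAt σ q) (h1 : rhoBar W hW.Δ_ne_zero σ ≠ 1)
    (h2 : rhoBar W hW.Δ_ne_zero σ * rhoBar W hW.Δ_ne_zero σ = 1) :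
    J(-(W.conductorLevel : ℤ) | q) = -1 := by
  have : Fact q.Prime := ⟨hq⟩
  set N := W.conductorLevel with hN
  have hqN : ¬ q ∣ N := fun h => hgood ((prime_dvd_conductorLevel_iff W hW.Δ_ne_zero hq).mp h)
  rw [← jacobiSym.legendreSym.to_jacobiSym]
  refine (legendreSym.eq_one_or_neg_one q ?_).resolve_left fun h => ?_
  · push_cast
    rw [neg_ne_zero, Ne, ZMod.natCast_eq_zero_iff]
    exact hqN
  set y := sqrtNeg N with hy
  have hyI : _root_.IsIntegral ℤ y := IsIntegral.of_pow two_pos (by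
    rw [sq_sqrtNeg]; exact (map_natCast (algebraMap ℤ QBar) N ▸ isIntegral_algebraMap).neg)
  have hσy : σ y = -y := smul_sqrtNeg_of_involution hW h1 h2
  have hcong : ((-(N : ℤ)) ^ (q / 2) : ℤ) - 1 ≡ 0 [ZMOD q] := by
    rw [← ZMod.intCast_eq_intCast_iff]
    have := legendreSym.eq_pow q (-(N : ℤ))
    rw [h] at this
    push_cast at this ⊢
    rw [← this, sub_self]
  obtain ⟨c, hc⟩ := Int.modEq_zero_iff_dvd.mp hcong
  have hf := (Arith.isFrobeniusAt_iff hA hq).mp hσ y hyI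
  have hodd : q = 2 * (q / 2) + 1 := by
    have := hq.eq_two_or_odd.resolve_left hq2
    omega
  have hyq : y ^ q = y * (1 + (q : QBar) * (c : QBar)) := by
    conv_lhs => rw [hodd, pow_succ', pow_mul, sq_sqrtNeg]
    congr 1
    have e : (((-(N : ℤ)) ^ (q / 2) - 1 : ℤ) : QBar) = (((q : ℤ) * c : ℤ) : QBar) := by rw [hc]
    push_cast at e
    linear_combination e
  rw [hσy, hyq] at hf
  have hyA := Arith.mem_of_isIntegral A hyI
  have h2y : (2 * y : QBar) ∈ A.nonunits := by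
    have hqc : y * ((q : QBar) * (c : QBar)) ∈ A.nonunits :=
      Arith.nonunits_mul_left hyA (Arith.nonunits_mul_right hA (intCast_mem A c))
    have h' := Arith.nonunits_neg (Arith.nonunits_add hf hqc)
    rwa [show -(-y - y * (1 + (q : QBar) * c) + y * ((q : QBar) * c)) = 2 * y by ring] at h'
  have h4N : (((4 * N : ℕ)) : QBar) ∈ A.nonunits := by
    have h' := Arith.nonunits_neg
      (Arith.nonunits_mul_left (mul_mem (natCast_mem A 2) hyA) h2y)
    rwa [show -(((2 : ℕ) : QBar) * y * (2 * y)) = ((4 * N : ℕ) : QBar) by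
      push_cast
      linear_combination (-4 : QBar) * sq_sqrtNeg N] at h'
  rcases hq.dvd_mul.mp ((Arith.natCast_mem_nonunits_iff hA hq _).mp h4N) with h' | h'
  · exact hq2 ((Nat.prime_dvd_prime_iff_eq hq Nat.prime_two).mp
      (hq.dvd_of_dvd_pow (show q ∣ 2 ^ 2 from h')))
  · exact hqN h'

end Fermat.Agent.TwoAdic

end
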