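import Fermat.Agent.TwoAdic.Galois.Defs
import Fermat.Agent.FiniteFlat.GalOrder
import Fermat.Agent.RT.LowerQ.Defs
import Fermat.Agent.TwoAdic.Dihedral.Bound

/-!
# The statements composing the Galois side of the two-adic modularity theorem

Selmer classes and auxiliary primes, local structure at `2` from Galois orders, the residual data
for the form side, the deformation datum of the dihedral lemma, the representations attached to
newforms, eigen points of the Jacobians and the removal of auxiliary primes.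
-/

set_option autoImplicit false
set_option synthInstance.maxHeartbeats 400000

noncomputable section

open WeierstrassCurve ModularCurve CongruenceSubgroup
open scoped NumberTheorySymbols

namespace Fermat.Agent.TwoAdic

open Arith (QBar GQ)

/-! ### Selmer classes -/

/-- A nontrivial class is detected by auxiliary primes of every depth avoiding a finite set. -/
def SelmerDetection : Prop :=
  ∀ (W : WeierstrassCurve ℤ) (hW : IsClassC W) (Q : Finset ℕ) (φ : GQ → Fin 2 → ZMod 2),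
    IsSelmerClass W hW.Δ_ne_zero Q φ → ¬ IsCoboundary W hW.Δ_ne_zero φ →
      ∀ (n : ℕ) (S : Finset ℕ), ∃ q, q ∉ S ∧ IsAuxPrime W hW.Δ_ne_zero n q ∧
        ∀ A : ValuationSubring QBar, A.LiesOverPrime q → ∀ σ : GQ, A.IsFrobeniusAt σ q →
          (rhoBar W hW.Δ_ne_zero σ).mulVec (φ σ) ≠ φ σ

/-- A prime detecting some class admits no class ramified at it. -/
def SelmerShrink : Prop :=
  ∀ (W : WeierstrassCurve ℤ) (hW : IsClassC W) (Q : Finset ℕ) (q : ℕ),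
    (∀ r ∈ Q, IsAuxPrime W hW.Δ_ne_zero 1 r) → IsAuxPrime W hW.Δ_ne_zero 1 q → q ∉ Q →
    ∀ φ ψ : GQ → Fin 2 → ZMod 2, IsSelmerClass W hW.Δ_ne_zero Q φ →
      IsSelmerClass W hW.Δ_ne_zero (insert q Q) ψ →
      ∀ A : ValuationSubring QBar, A.LiesOverPrime q → ∀ σ : GQ, A.IsFrobeniusAt σ q →
        (rhoBar W hW.Δ_ne_zero σ).mulVec (φ σ) ≠ φ σ →
          ∀ τ ∈ A.inertiaSubgroupIn ℚ, ψ τ = 0

/-- For the empty auxiliary set there are finitely many classes modulo coboundaries. -/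
def SelmerFinite : Prop :=
  ∀ (W : WeierstrassCurve ℤ) (hW : IsClassC W), ∃ (ι : Type) (_ : Finite ι)
    (c : ι → GQ → Fin 2 → ZMod 2), ∀ φ, IsSelmerClass W hW.Δ_ne_zero ∅ φ →
      ∃ i, IsCoboundary W hW.Δ_ne_zero fun σ => φ σ - c i σ

/-- Auxiliary sets of bounded size and every depth with no nontrivial class. -/
def AuxPrimesExist : Prop :=
  ∀ (W : WeierstrassCurve ℤ) (hW : IsClassC W), ∃ r : ℕ, ∀ (n : ℕ) (S : Finset ℕ),
    ∃ Q : Finset ℕ, Q.card ≤ r ∧ Disjoint Q S ∧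
      (∀ q ∈ Q, IsAuxPrime W hW.Δ_ne_zero n q) ∧ SelmerTrivial W hW.Δ_ne_zero Q

/-! ### Local structure at `2` of Galois modules with a Galois order -/

/-- With an order, and inertia acting through a `2`-group: inertia moves every point into a
subgroup on which it acts by the cyclotomic character. -/
def OrdinaryLineProperty : Prop :=
  ∀ (M : Type) [AddCommGroup M] [DistribMulAction GQ M] [Finite M] (k : ℕ),
    (∀ x : M, (2 ^ k) • x = 0) → Nonempty (FiniteFlat.GalOrder 2 M) →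
    ∀ A : ValuationSubring QBar, A.LiesOverPrime 2 →
      (∀ τ ∈ A.inertiaSubgroupIn ℚ, ∃ j : ℕ, ∀ x : M, τ ^ (2 ^ j) • x = x) →
      ∀ σ ∈ A.inertiaSubgroupIn ℚ, ∀ τ ∈ A.inertiaSubgroupIn ℚ, ∀ c : ℕ,
        (∀ ζ : QBar, ζ ^ 2 ^ k = 1 → τ ζ = ζ ^ c) →
          ∀ x : M, τ • (σ • x - x) = c • (σ • x - x)

/-- For a module killed by `2`, the peu ramifié kernel acts trivially. -/
def PeuProperty : Prop :=
  ∀ (M : Type) [AddCommGroup M] [DistribMulAction GQ M] [Finite M],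
    (∀ x : M, 2 • x = 0) → Nonempty (FiniteFlat.GalOrder 2 M) →
    ∀ A : ValuationSubring QBar, A.LiesOverPrime 2 →
      (∀ τ ∈ A.inertiaSubgroupIn ℚ, ∃ j : ℕ, ∀ x : M, τ ^ (2 ^ j) • x = x) →
      ∀ σ : GQ, IsPeuKernel A σ → ∀ x : M, σ • x = x

/-! ### The representation of the curve -/

/-- The properties of the representation on the two-adic Tate module of a curve in the class. -/
structure CurveRep (W : WeierstrassCurve ℤ) (hΔ : W.Δ ≠ 0) : Prop where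
  finiteLevel : ∀ k : ℕ, IsFiniteLevel (rhoPow W hΔ k)
  det : ∀ (k : ℕ) (σ : GQ) (c : ℕ), (∀ ζ : QBar, ζ ^ 2 ^ k = 1 → σ ζ = ζ ^ c) →
    (rhoPow W hΔ k σ).det = (c : ZMod (2 ^ k))
  full : ∀ X : M2 (ZMod 2), X.det = 1 → ∃ σ, rhoBar W hΔ σ = X
  rotations : ∀ σ : GQ, σ ∈ GK W.conductorLevel ↔ Dihedral.IsC (rhoBar W hΔ σ)
  frobenius : ∀ ℓ : ℕ, ℓ.Prime → ℓ ≠ 2 → W.IsGoodPrimeFor ℓ →
    ∀ P : ValuationSubring QBar, P.LiesOverPrime ℓ → ∀ σ : GQ, P.IsFrobeniusAt σ ℓ →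
      (rho W hΔ σ).trace = (W.apOfModel ℓ : ℤ_[2]) ∧ (rho W hΔ σ).det = (ℓ : ℤ_[2])
  unramified : ∀ ℓ : ℕ, ℓ.Prime → ℓ ≠ 2 → W.IsGoodPrimeFor ℓ →
    ∀ P : ValuationSubring QBar, P.LiesOverPrime ℓ → ∀ τ ∈ P.inertiaSubgroupIn ℚ,
      rho W hΔ τ = 1
  bad : ∀ ℓ : ℕ, ℓ.Prime → (ℓ : ℤ) ∣ W.Δ → ∀ P : ValuationSubring QBar, P.LiesOverPrime ℓ →
    (∀ τ ∈ P.inertiaSubgroupIn ℚ, (rho W hΔ τ - 1) ^ 2 = 0 ∧ (rho W hΔ τ).trace = 2) ∧
      ∃ τ ∈ P.inertiaSubgroupIn ℚ, rhoBar W hΔ τ ≠ 1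
  two : ∃ α u : ℤ_[2], u * α = 1 ∧ α * α - (W.apOfModel 2 : ℤ_[2]) * α + 2 = 0 ∧
    ∀ P : ValuationSubring QBar, P.LiesOverPrime 2 → ∀ σ : GQ, P.IsFrobeniusAt σ 2 →
      (rho W hΔ σ).trace = α + (rho W hΔ σ).det * u ∧
      ∀ τ ∈ P.inertiaSubgroupIn ℚ, (rho W hΔ τ).trace = 1 + (rho W hΔ τ).det ∧
        (rho W hΔ τ - (rho W hΔ τ).det • 1) * (rho W hΔ σ - α • 1) = 0 ∧
        ∀ τ' ∈ P.inertiaSubgroupIn ℚ,
          (rho W hΔ τ - (rho W hΔ τ).det • 1) * (rho W hΔ τ' - 1) = 0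
  flat : ∀ k : ℕ, Nonempty (FiniteFlat.GalOrder 2 (MatMod (rhoPow W hΔ k)))

/-- Curves in the class have such representations. -/
def CurveRepInput : Prop :=
  ∀ (W : WeierstrassCurve ℤ) (hW : IsClassC W), CurveRep W hW.Δ_ne_zero

/-! ### The dihedral lemma -/

/-- A deformation of `rhoBar` to a finite ring of characteristic `2` with the local conditions of
the auxiliary set `Q`. -/
structure IsDihedralDatum (W : WeierstrassCurve ℤ) (hΔ : W.Δ ≠ 0) (Q : Finset ℕ) {A : Type}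
    [CommRing A] [IsLocalRing A] [Finite A] (π : A →+* ZMod 2) (r : GQ →* M2 A) (eps : ℕ → A)
    (alpha : A) : Prop where
  two_eq_zero : (2 : A) = 0
  residual : ∀ σ, (r σ).map π = rhoBar W hΔ σ
  finiteLevel : IsFiniteLevel r
  det : ∀ σ, (r σ).det = 1
  generated : Subring.closure
    (Set.range (fun σ => (r σ).trace) ∪ eps '' ↑Q ∪ {alpha}) = ⊤
  unramified : ∀ ℓ : ℕ, ℓ.Prime → ℓ ≠ 2 → W.IsGoodPrimeFor ℓ → ℓ ∉ Q →
    ∀ P : ValuationSubring QBar, P.LiesOverPrime ℓ → ∀ τ ∈ P.inertiaSubgroupIn ℚ, r τ = 1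
  bad : ∀ ℓ : ℕ, ℓ.Prime → (ℓ : ℤ) ∣ W.Δ → ∀ P : ValuationSubring QBar, P.LiesOverPrime ℓ →
    ∀ τ ∈ P.inertiaSubgroupIn ℚ, (r τ).trace = 0 ∧ (r τ - 1) ^ 2 = 0
  aux : ∀ q ∈ Q, ∀ P : ValuationSubring QBar, P.LiesOverPrime q → ∀ σ : GQ,
    P.IsFrobeniusAt σ q → (r σ).trace = 0 ∧
      (r σ - eps q • 1) * (r σ - eps q • 1) = 0 ∧
      ∀ τ ∈ P.inertiaSubgroupIn ℚ, (r τ - 1) * (r σ - eps q • 1) = 0
  two : ∀ P : ValuationSubring QBar, P.LiesOverPrime 2 → ∀ σ : GQ, P.IsFrobeniusAt σ 2 →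
    ∃ u : A, u * alpha = 1 ∧ (r σ).trace = alpha + u ∧
      ∀ τ ∈ P.inertiaSubgroupIn ℚ, (r τ).trace = 0 ∧ (r τ - 1) * (r σ - alpha • 1) = 0 ∧
        ∀ τ' ∈ P.inertiaSubgroupIn ℚ, (r τ - 1) * (r τ' - 1) = 0
  peu : ∀ P : ValuationSubring QBar, P.LiesOverPrime 2 → ∀ σ : GQ, IsPeuKernel P σ → r σ = 1

/-- The dihedral lemma (`Dihedral.Rep.card_le_of_range_le`) for a curve in the class: with no
Selmer class for `Q` such a ring is small. -/
def DihedralBound : Prop :=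
  ∀ (W : WeierstrassCurve ℤ) (hW : IsClassC W) (Q : Finset ℕ) (B : ℕ),
    (∀ q ∈ Q, IsAuxPrime W hW.Δ_ne_zero 1 q) → SelmerTrivial W hW.Δ_ne_zero Q →
    UnramifiedCharBound W.conductorLevel B →
    ∀ (A : Type) [CommRing A] [IsLocalRing A] [Finite A] (π : A →+* ZMod 2) (r : GQ →* M2 A)
      (eps : ℕ → A) (alpha : A), IsDihedralDatum W hW.Δ_ne_zero Q π r eps alpha →
      Nat.card A ≤ 2 ^ (B * 2 ^ (Q.card + 1))

/-! ### The input of the form side -/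

/-- The residual data of the form side, with a two-part bounding the unramified characters. -/
def ResidualInput : Prop :=
  ∀ (W : WeierstrassCurve ℤ) (_ : IsClassC W), 3 < W.conductorLevel ∧
    ∃ (D : Forms.IdealData W.conductorLevel) (R : Forms.ResidualData D),
      (∀ ℓ : ℕ, ℓ.Prime → ℓ ≠ 2 → W.IsGoodPrimeFor ℓ →
        R.abar ℓ = (W.apOfModel ℓ : ZMod 2)) ∧
      UnramifiedCharBound W.conductorLevel (Fintype.card R.C)

/-- A congruent newform has level divisible by all bad primes. -/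
def ResidualLevelInput : Prop :=
  ∀ (W : WeierstrassCurve ℤ) (_ : IsClassC W) (abar : ℕ → ZMod 2),
    (∀ ℓ : ℕ, ℓ.Prime → ℓ ≠ 2 → W.IsGoodPrimeFor ℓ → abar ℓ = (W.apOfModel ℓ : ZMod 2)) →
    ∀ (L M : ℕ), 0 < L → M ∣ L → ∀ 𝔪 : Ideal Forms.ZBar, 𝔪.IsMaximal → (2 : Forms.ZBar) ∈ 𝔪 →
      ∀ g : CuspForm (Gamma0 M) 2, g.IsNewform → Forms.IsCongruentTo 𝔪 abar L g →
        W.conductorLevel ∣ M

/-! ### Representations of newforms -/

/-- The subring of `ℂ` generated by the coefficients. -/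
abbrev coeffRing {L : ℕ} (g : CuspForm (Gamma0 L) 2) : Subalgebra ℤ ℂ :=
  Algebra.adjoin ℤ (Set.range fun n : ℕ => ModularFormClass.qCoeff g n)

/-- The two-adic representation of a newform of odd squarefree level, ordinary at `2`, compatible
with `𝔪`, with its local properties. -/
structure NewformRep {L : ℕ} (g : CuspForm (Gamma0 L) 2) (𝔪 : Ideal Forms.ZBar) where
  O : Type
  [commRing : CommRing O]
  [isDomain : IsDomain O]
  [isDVR : IsDiscreteValuationRing O]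
  [isComplete : IsAdicComplete (IsLocalRing.maximalIdeal O) O]
  [finiteResidue : Finite (IsLocalRing.ResidueField O)]
  [charZero : CharZero O]
  two_mem : (2 : O) ∈ IsLocalRing.maximalIdeal O
  coeff : coeffRing g →+* O
  coeff_injective : Function.Injective coeff
  coeff_compat : ∀ (x : coeffRing g) (y : Forms.ZBar), (x : ℂ) = (y : ℂ) →
    (coeff x ∈ IsLocalRing.maximalIdeal O ↔ y ∈ 𝔪)
  coeff_place : ∀ x y : coeffRing g, coeff y ∣ coeff x ↔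
    ∃ s t : Forms.ZBar, s ∉ 𝔪 ∧ (s : ℂ) * (x : ℂ) = (t : ℂ) * (y : ℂ)
  r : GQ →* M2 O
  finiteLevel : ∀ k : ℕ, IsFiniteLevel (modIdeal r (Ideal.span {(2 : O) ^ k}))
  det : ∀ (k : ℕ) (σ : GQ) (c : ℕ), (∀ ζ : QBar, ζ ^ 2 ^ k = 1 → σ ζ = ζ ^ c) →
    (r σ).det - (c : O) ∈ Ideal.span {(2 : O) ^ k}
  frobenius : ∀ ℓ : ℕ, ℓ.Prime → ¬ ℓ ∣ 2 * L →
    ∀ P : ValuationSubring QBar, P.LiesOverPrime ℓ → ∀ σ : GQ, P.IsFrobeniusAt σ ℓ →
      (r σ).trace = coeff ⟨_, Algebra.subset_adjoin ⟨ℓ, rfl⟩⟩ ∧ (r σ).det = (ℓ : O)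
  unramified : ∀ ℓ : ℕ, ℓ.Prime → ¬ ℓ ∣ 2 * L →
    ∀ P : ValuationSubring QBar, P.LiesOverPrime ℓ → ∀ τ ∈ P.inertiaSubgroupIn ℚ, r τ = 1
  special : ∀ q : ℕ, q.Prime → q ∣ L → ∃ δ : O, δ * δ = 1 ∧
    ∀ P : ValuationSubring QBar, P.LiesOverPrime q →
      (∀ τ ∈ P.inertiaSubgroupIn ℚ, (r τ - 1) ^ 2 = 0 ∧ (r τ).trace = 2) ∧
      ∀ σ : GQ, P.IsFrobeniusAt σ q → (r σ).trace = δ * (1 + (q : O)) ∧
        ∀ τ ∈ P.inertiaSubgroupIn ℚ, (r τ - 1) * (r σ - δ • 1) = 0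
  two : ∃ α u : O, u * α = 1 ∧
    α * α - coeff ⟨_, Algebra.subset_adjoin ⟨2, rfl⟩⟩ * α + 2 = 0 ∧
    ∀ P : ValuationSubring QBar, P.LiesOverPrime 2 → ∀ σ : GQ, P.IsFrobeniusAt σ 2 →
      (r σ).trace = α + (r σ).det * u ∧
      ∀ τ ∈ P.inertiaSubgroupIn ℚ, (r τ).trace = 1 + (r τ).det ∧
        (r τ - (r τ).det • 1) * (r σ - α • 1) = 0 ∧
        ∀ τ' ∈ P.inertiaSubgroupIn ℚ, (r τ - (r τ).det • 1) * (r τ' - 1) = 0
  flat : ∀ k : ℕ,
    Nonempty (FiniteFlat.GalOrder 2 (MatMod (modIdeal r (Ideal.span {(2 : O) ^ k}))))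

attribute [instance] NewformRep.commRing NewformRep.isDomain NewformRep.isDVR
  NewformRep.isComplete NewformRep.finiteResidue NewformRep.charZero

/-- Newforms of odd squarefree level congruent to a curve in the class, with `a₂ ∉ 𝔪`, have such
representations. -/
def NewformRepInputTwo : Prop :=
  ∀ (L : ℕ) [NeZero L], Squarefree L → Odd L → ∀ g : CuspForm (Gamma0 L) 2, g.IsNewform →
    ∀ 𝔪 : Ideal Forms.ZBar, 𝔪.IsMaximal → (2 : Forms.ZBar) ∈ 𝔪 →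
      (∀ y : Forms.ZBar, (y : ℂ) = ModularFormClass.qCoeff g 2 → y ∉ 𝔪) →
      ∀ (W : WeierstrassCurve ℤ) (abar : ℕ → ZMod 2), IsClassC W →
        (∀ ℓ : ℕ, ℓ.Prime → ℓ ≠ 2 → W.IsGoodPrimeFor ℓ →
          abar ℓ = (W.apOfModel ℓ : ZMod 2)) →
        Forms.IsCongruentTo 𝔪 abar L g → Nonempty (NewformRep g 𝔪)

/-! ### Eigen points and the removal of auxiliary primes -/

/-- Some point of exact order `2 ^ m` of `J₀(L)` is killed by all `T_ℓ - a_ℓ(W)`, `ℓ ∉ S`. -/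
def HasEigenPoint (W : WeierstrassCurve ℤ) (L : ℕ) [NeZero L] (S : Finset ℕ) (m : ℕ) : Prop :=
  ∃ x : JZero L, addOrderOf x = 2 ^ m ∧ ∀ (ℓ : ℕ) (hℓ : ℓ.Prime), ℓ ∉ S →
    heckeOperatorBar L ⟨ℓ, hℓ⟩ x = W.apOfModel ℓ • x

/-- Many congruent newforms and the dihedral lemma give an eigen point at the auxiliary level. -/
def CongruenceInput : Prop :=
  ∀ (W : WeierstrassCurve ℤ) (hW : IsClassC W) (B : ℕ) (abar : ℕ → ZMod 2),
    UnramifiedCharBound W.conductorLevel B →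
    (∀ ℓ : ℕ, ℓ.Prime → ℓ ≠ 2 → W.IsGoodPrimeFor ℓ → abar ℓ = (W.apOfModel ℓ : ZMod 2)) →
    abar 2 = 1 → ∀ (n : ℕ) (Q : Finset ℕ) [NeZero (W.conductorLevel * ∏ q ∈ Q, q)],
    (∀ q ∈ Q, IsAuxPrime W hW.Δ_ne_zero (n + 1) q) → SelmerTrivial W hW.Δ_ne_zero Q →
    ∀ (𝔪 : Ideal Forms.ZBar), 𝔪.IsMaximal → (2 : Forms.ZBar) ∈ 𝔪 →
    ∀ F : Finset (CuspForm (Gamma0 (W.conductorLevel * ∏ q ∈ Q, q)) 2),
      B * 2 ^ (Q.card + 1) ≤ F.card →
      (∀ g ∈ F, g.IsNewform ∧ Forms.IsCongruentTo 𝔪 abar (W.conductorLevel * ∏ q ∈ Q, q) g) →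
      HasEigenPoint W (W.conductorLevel * ∏ q ∈ Q, q)
        (insert 2 (W.conductorLevel * ∏ q ∈ Q, q).primeFactors)
        (n / (B * 2 ^ (Q.card + 1)) ^ 2)

/-- Removing an auxiliary prime from the level loses boundedly many digits. -/
def RemovalInput : Prop :=
  ∀ (W : WeierstrassCurve ℤ) (hW : IsClassC W), ∃ c : ℕ, ∀ (q M : ℕ) [NeZero M] [NeZero (q * M)],
    ∀ (S : Finset ℕ) (m : ℕ), Squarefree (q * M) → Odd (q * M) → W.conductorLevel ∣ M →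
      IsAuxPrime W hW.Δ_ne_zero m q → 2 ∈ S → (∀ ℓ : ℕ, ℓ.Prime → ℓ ∣ q * M → ℓ ∈ S) →
      (∀ ℓ : ℕ, ℓ.Prime → ℓ ∉ S → W.IsGoodPrimeFor ℓ) →
      HasEigenPoint W (q * M) S m → HasEigenPoint W M S (m - c)

/-- Eigen points of every order with arbitrarily small exceptional sets give an eigenform. -/
def LimitInput : Prop :=
  ∀ (W : WeierstrassCurve ℤ) (_ : IsClassC W) [NeZero W.conductorLevel],
    (∀ (m : ℕ) (S₀ : Finset ℕ), ∃ S : Finset ℕ,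
      (∀ ℓ ∈ S₀, ℓ.Prime → ¬ ℓ ∣ 2 * W.conductorLevel → ℓ ∉ S) ∧
        HasEigenPoint W W.conductorLevel S m) →
    W.IsModularModelOfLevel W.conductorLevel

end Fermat.Agent.TwoAdic
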