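import Fermat.Agent.TwoAdic.Galois.Defs
import Fermat.Agent.EC.Rep.Local.Unipotent
import Fermat.Agent.EC.Rep.Tate.DetCyclotomic
import Mathlib.NumberTheory.LSeries.PrimesInAP

/-!
# Basic properties of `rho`, `rhoPow` and `rhoBar`

Finite level, unramifiedness at good primes, trace and determinant at Frobenius elements,
unipotence of inertia at bad primes, and conjugacy of Frobenius elements.
-/

set_option autoImplicit false

noncomputable section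

open WeierstrassCurve Matrix

namespace Fermat.Agent.TwoAdic

open Arith (QBar GQ)

variable {W : WeierstrassCurve ℤ} (hΔ : W.Δ ≠ 0)

/-- The coordinates of the Tate module. -/
abbrev tateCoord : Module.Basis (Fin 2) ℤ_[2] (EC.Rep.tateRep W 2 hΔ).V :=
  Module.Basis.finTwoProd ℤ_[2]

theorem rho_eq (σ : GQ) :
    rho W hΔ σ = LinearMap.toMatrix (tateCoord hΔ) (tateCoord hΔ) ((EC.Rep.tateRep W 2 hΔ).ρ σ) :=
  rfl

theorem tateCoord_repr (y : (EC.Rep.tateRep W 2 hΔ).V) :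
    ((tateCoord hΔ).repr y : Fin 2 → ℤ_[2]) =
      ![(y : ℤ_[2] × ℤ_[2]).1, (y : ℤ_[2] × ℤ_[2]).2] := by
  funext i
  fin_cases i <;> rfl

theorem rho_mulVec (σ : GQ) (x : (EC.Rep.tateRep W 2 hΔ).V) :
    rho W hΔ σ *ᵥ ((tateCoord hΔ).repr x : Fin 2 → ℤ_[2]) =
      (tateCoord hΔ).repr ((EC.Rep.tateRep W 2 hΔ).ρ σ x) := by
  rw [rho_eq]
  exact LinearMap.toMatrix_mulVec_repr (tateCoord hΔ) (tateCoord hΔ) _ x

theorem rhoPow_eq (n : ℕ) (σ : GQ) :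
    rhoPow W hΔ n σ = (rho W hΔ σ).map (PadicInt.toZModPow (p := 2) n) :=
  rfl

theorem rhoBar_eq (σ : GQ) :
    rhoBar W hΔ σ = (rho W hΔ σ).map (PadicInt.toZMod (p := 2)) :=
  rfl

/-- Reduction of `rhoPow` is `rhoBar`. -/
theorem rhoPow_map {n : ℕ} (f : ZMod (2 ^ n) →+* ZMod 2) (σ : GQ) :
    (rhoPow W hΔ n σ).map f = rhoBar W hΔ σ := by
  rw [rhoPow_eq, rhoBar_eq, Matrix.map_map]
  congr 1
  funext x
  have hker : RingHom.ker (f.comp (PadicInt.toZModPow (p := 2) n)) =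
      RingHom.ker (PadicInt.toZMod (p := 2)) := by
    rw [PadicInt.ker_toZMod]
    exact IsLocalRing.eq_maximalIdeal (RingHom.ker_isMaximal_of_surjective _
      (ZMod.ringHom_surjective _))
  have h1 : x - ((PadicInt.toZMod x).val : ℤ_[2]) ∈ RingHom.ker (PadicInt.toZMod (p := 2)) := by
    rw [RingHom.mem_ker, map_sub, map_natCast, ZMod.natCast_zmod_val, sub_self]
  rw [← hker, RingHom.mem_ker, map_sub, map_natCast, sub_eq_zero] at h1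
  show f (PadicInt.toZModPow n x) = _
  rw [RingHom.comp_apply] at h1
  rw [h1, ZMod.natCast_zmod_val]

theorem rhoPow_det (n : ℕ) (σ : GQ) :
    (rhoPow W hΔ n σ).det = PadicInt.toZModPow (p := 2) n (rho W hΔ σ).det := by
  rw [rhoPow_eq]
  exact (RingHom.map_det (PadicInt.toZModPow (p := 2) n) _).symm

theorem rhoPow_trace (n : ℕ) (σ : GQ) :
    (rhoPow W hΔ n σ).trace = PadicInt.toZModPow (p := 2) n (rho W hΔ σ).trace := by
  rw [rhoPow_eq, Matrix.trace_fin_two, Matrix.trace_fin_two, map_add]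
  rfl

theorem rhoBar_det (σ : GQ) : (rhoBar W hΔ σ).det = 1 := by
  have hu : IsUnit (rhoBar W hΔ σ).det := (Matrix.isUnit_iff_isUnit_det _).mp
    (IsUnit.of_mul_eq_one _ (show rhoBar W hΔ σ * rhoBar W hΔ σ⁻¹ = 1 by
      rw [← map_mul, mul_inv_cancel, map_one]))
  generalize (rhoBar W hΔ σ).det = x at hu ⊢
  fin_cases x
  · exact absurd hu not_isUnit_zero
  · rfl

/-- An element fixing `E[2 ^ n]` is trivial modulo `2 ^ n`. -/
theorem rhoPow_eq_one_of_fix {n : ℕ} {σ : GQ}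
    (h : ∀ x : EC.Rep.PtQ W, (2 : ℤ) ^ n • x = 0 → σ • x = x) : rhoPow W hΔ n σ = 1 := by
  have key : ∀ v : (EC.Rep.tateRep W 2 hΔ).V,
      PadicInt.toZModPow (p := 2) n
          ((EC.Rep.tateRep W 2 hΔ).ρ σ v : ℤ_[2] × ℤ_[2]).1 = PadicInt.toZModPow n (v : ℤ_[2] × ℤ_[2]).1 ∧
      PadicInt.toZModPow (p := 2) n
          ((EC.Rep.tateRep W 2 hΔ).ρ σ v : ℤ_[2] × ℤ_[2]).2 = PadicInt.toZModPow n (v : ℤ_[2] × ℤ_[2]).2 := by
    intro v
    have h0 : EC.Rep.tateRed hΔ n ((EC.Rep.tateRep W 2 hΔ).ρ σ v - v) = 0 := by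
      rw [map_sub, EC.Rep.red_tateRep,
        h _ (by exact_mod_cast EC.Rep.pow_smul_tateRed hΔ n v), sub_self]
    obtain ⟨h1, h2⟩ := (EC.Rep.tateRed_eq_zero_iff hΔ n _).mp h0
    exact ⟨EC.Rep.TateBasis.toZModPow_eq_of_sub_mem h1,
      EC.Rep.TateBasis.toZModPow_eq_of_sub_mem h2⟩
  rw [rhoPow_eq]
  ext i j
  rw [Matrix.map_apply, rho_eq, LinearMap.toMatrix_apply]
  obtain ⟨h1, h2⟩ := key ((tateCoord hΔ) j)
  rw [tateCoord_repr]
  have e0 : (tateCoord hΔ 0 : ℤ_[2] × ℤ_[2]) = (1, 0) := Module.Basis.finTwoProd_zero _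
  have e1 : (tateCoord hΔ 1 : ℤ_[2] × ℤ_[2]) = (0, 1) := Module.Basis.finTwoProd_one _
  fin_cases i <;> fin_cases j <;>
    simp only [Fin.zero_eta, Fin.mk_one] at h1 h2 ⊢ <;>
    rw [e0] at * <;> rw [e1] at * <;> simp_all

theorem isFiniteLevel_rhoPow (n : ℕ) : IsFiniteLevel (rhoPow W hΔ n) := by
  have : (W.map (Int.castRingHom ℚ)).IsElliptic := EC.FrobTrace.isElliptic_map_rat hΔ
  obtain ⟨L, hLfin, hL⟩ := EC.Torsion.galoisFactorsThroughFiniteLevel_galoisRepModuleEnd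
    (W.map (Int.castRingHom ℚ)) (n := 2 ^ n) (pow_ne_zero n two_ne_zero)
  refine ⟨L, hLfin, fun σ hσ => rhoPow_eq_one_of_fix hΔ fun x hx => ?_⟩
  exact congrArg Subtype.val (LinearMap.congr_fun (hL σ hσ)
    ⟨x, by rw [Submodule.mem_torsionBy_iff]; push_cast; exact hx⟩)

theorem rho_eq_one_of_inertia {ℓ : ℕ} (hℓ : ℓ.Prime) (hℓ2 : ℓ ≠ 2) (hgood : W.IsGoodPrimeFor ℓ)
    {A : ValuationSubring QBar} (hA : A.LiesOverPrime ℓ) {τ : GQ}
    (hτ : τ ∈ A.inertiaSubgroupIn ℚ) : rho W hΔ τ = 1 := by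
  rw [rho_eq, EC.Rep.isUnramifiedAt_tateRep hΔ hℓ hgood hℓ2 A hA τ hτ, LinearMap.toMatrix_one]

theorem rho_frobenius {ℓ : ℕ} (hℓ : ℓ.Prime) (hℓ2 : ℓ ≠ 2) (hgood : W.IsGoodPrimeFor ℓ)
    {A : ValuationSubring QBar} (hA : A.LiesOverPrime ℓ) {σ : GQ} (hσ : A.IsFrobeniusAt σ ℓ) :
    (rho W hΔ σ).trace = (W.apOfModel ℓ : ℤ_[2]) ∧ (rho W hΔ σ).det = (ℓ : ℤ_[2]) := by
  obtain ⟨h1, h2⟩ := EC.Rep.tateRep_trace_det_frobenius hΔ hℓ hgood hℓ2 hA hσ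
  rw [rho_eq]
  refine ⟨?_, ?_⟩
  · rw [← h1]
    exact (LinearMap.trace_eq_matrix_trace ℤ_[2] (tateCoord hΔ) _).symm
  · rw [← h2]
    exact LinearMap.det_toMatrix (tateCoord hΔ) _

theorem rhoPow_frobenius {ℓ : ℕ} (hℓ : ℓ.Prime) (hℓ2 : ℓ ≠ 2) (hgood : W.IsGoodPrimeFor ℓ)
    {A : ValuationSubring QBar} (hA : A.LiesOverPrime ℓ) {σ : GQ} (hσ : A.IsFrobeniusAt σ ℓ)
    (n : ℕ) :
    (rhoPow W hΔ n σ).trace = (W.apOfModel ℓ : ZMod (2 ^ n)) ∧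
      (rhoPow W hΔ n σ).det = (ℓ : ZMod (2 ^ n)) := by
  obtain ⟨h1, h2⟩ := rho_frobenius hΔ hℓ hℓ2 hgood hA hσ
  rw [rhoPow_trace, rhoPow_det, h1, h2, map_intCast, map_natCast]
  exact ⟨rfl, rfl⟩

/-- The determinant modulo `2 ^ n` takes every unit value. -/
theorem exists_det_rhoPow_eq (n : ℕ) {a : ZMod (2 ^ n)} (ha : IsUnit a) :
    ∃ d : GQ, (rhoPow W hΔ n d).det = a := by
  have : NeZero (2 ^ n) := ⟨pow_ne_zero n two_ne_zero⟩
  obtain ⟨ℓ, hgt, hℓ, hℓe⟩ := Nat.forall_exists_prime_gt_and_eq_mod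
    (q := 2 ^ n) (a := a) ha (W.Δ.natAbs + 2)
  have hgood : W.IsGoodPrimeFor ℓ := fun h => by
    have := Nat.le_of_dvd (Int.natAbs_pos.mpr hΔ) (Int.natCast_dvd.mp h)
    omega
  obtain ⟨A, hA⟩ := Arith.exists_liesOverPrime hℓ
  obtain ⟨σ, hσ⟩ := Arith.exists_isFrobeniusAt hA hℓ
  exact ⟨σ, (rhoPow_frobenius hΔ hℓ (by omega) hgood hA hσ n).2.trans hℓe⟩

/-- Some element has determinant `-1` modulo `2 ^ n`. -/
theorem exists_det_rhoPow_eq_neg_one (n : ℕ) : ∃ d : GQ, (rhoPow W hΔ n d).det = -1 :=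
  exists_det_rhoPow_eq hΔ n isUnit_one.neg

theorem rho_sub_one_mul_self_of_inertia (hW : W.IsSemistableModel) {ℓ : ℕ} (hℓ : ℓ.Prime)
    (hℓ2 : ℓ ≠ 2) {A : ValuationSubring QBar} (hA : A.LiesOverPrime ℓ) {τ : GQ}
    (hτ : τ ∈ A.inertiaSubgroupIn ℚ) : (rho W hΔ τ - 1) * (rho W hΔ τ - 1) = 0 := by
  have hss : ¬ ((ℓ : ℤ) ∣ W.c₄ ∧ (ℓ : ℤ) ∣ W.Δ) := fun h => hW ℓ hℓ h.2 h.1
  have h0 : ((EC.Rep.tateRep W 2 hΔ).ρ τ - 1) * ((EC.Rep.tateRep W 2 hΔ).ρ τ - 1) = 0 :=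
    LinearMap.ext fun v => EC.Rep.tateRed_eq_zero_of_forall hΔ fun n => by
      rw [Module.End.mul_apply, LinearMap.sub_apply, LinearMap.sub_apply, Module.End.one_apply,
        Module.End.one_apply, map_sub, EC.Rep.red_tateRep, map_sub, EC.Rep.red_tateRep,
        EC.Rep.smul_smul_sub_of_semistable hℓ hℓ2 hss hΔ hA hτ n
          (EC.Rep.pow_smul_tateRed hΔ n v), sub_self]
  have h1 := congrArg (LinearMap.toMatrix (tateCoord hΔ) (tateCoord hΔ)) h0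
  rw [LinearMap.toMatrix_mul, map_sub, LinearMap.toMatrix_one, map_zero] at h1
  rw [rho_eq]
  exact h1

theorem rhoPow_sub_one_mul_self_of_inertia (hW : W.IsSemistableModel) {ℓ : ℕ} (hℓ : ℓ.Prime)
    (hℓ2 : ℓ ≠ 2) {A : ValuationSubring QBar} (hA : A.LiesOverPrime ℓ) {τ : GQ}
    (hτ : τ ∈ A.inertiaSubgroupIn ℚ) (n : ℕ) :
    (rhoPow W hΔ n τ - 1) * (rhoPow W hΔ n τ - 1) = 0 := by
  have h := congrArg (PadicInt.toZModPow (p := 2) n).mapMatrix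
    (rho_sub_one_mul_self_of_inertia hΔ hW hℓ hℓ2 hA hτ)
  rw [map_mul, map_sub, map_one, map_zero] at h
  exact h

/-- Frobenius elements at places over one prime differ by conjugation and inertia. -/
theorem frobenius_eq_conj_mul {q : ℕ} (hq : q.Prime) {A B : ValuationSubring QBar}
    (hA : A.LiesOverPrime q) (hB : B.LiesOverPrime q) {σ σ' : GQ} (hσ : A.IsFrobeniusAt σ q)
    (hσ' : B.IsFrobeniusAt σ' q) :
    ∃ h : GQ, ∃ τ ∈ B.inertiaSubgroupIn ℚ, σ' = h * σ * h⁻¹ * τ := by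
  obtain ⟨g, rfl⟩ := Arith.exists_smul_eq hA hB hq
  exact ⟨g, _, Arith.inv_mul_mem_inertia hσ' (Arith.isFrobeniusAt_conj hσ),
    (mul_inv_cancel_left _ _).symm⟩

end Fermat.Agent.TwoAdic

end
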