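import Fermat.Agent.TwoAdic.Galois.Interface
import Fermat.Agent.Top.Inputs
import Fermat.Agent.Top.GoodClass

/-!
# The two-adic modularity theorem from the statements of the interface

Auxiliary primes are chosen greedily from detection, shrinking and finiteness of the Selmer
classes; at the auxiliary level the form side and the congruence statement give an eigen point,
which removal carries down to the conductor level, and the limit gives the eigenform.
-/

set_option autoImplicit false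
set_option synthInstance.maxHeartbeats 400000

noncomputable section

open WeierstrassCurve ModularCurve
open scoped NumberTheorySymbols

namespace Fermat.Agent.TwoAdic

open Arith (QBar GQ)

variable {W : WeierstrassCurve ℤ}

theorem IsAuxPrime.mono {hΔ : W.Δ ≠ 0} {n m q : ℕ} (h : IsAuxPrime W hΔ n q) (hmn : m ≤ n) :
    IsAuxPrime W hΔ m q where
  prime := h.prime
  ne_two := h.ne_two
  good := h.good
  inert := h.inert
  q_mod := (Int.natCast_dvd_natCast.mpr (pow_dvd_pow 2 hmn)).trans h.q_mod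
  ap_mod := (Int.natCast_dvd_natCast.mpr (pow_dvd_pow 2 hmn)).trans h.ap_mod
  frob_invol := h.frob_invol

theorem IsAuxPrime.rhoBar_sq {hΔ : W.Δ ≠ 0} {q : ℕ} (h : IsAuxPrime W hΔ 1 q)
    (A : ValuationSubring QBar) (hA : A.LiesOverPrime q) (σ : GQ) (hσ : A.IsFrobeniusAt σ q) :
    rhoBar W hΔ σ * rhoBar W hΔ σ = 1 :=
  (h.frob_invol A hA σ hσ).1

theorem IsSelmerClass.isSelmerClass_of_forall {hΔ : W.Δ ≠ 0} {Q : Finset ℕ} {q : ℕ}
    {φ : GQ → Fin 2 → ZMod 2} (h : IsSelmerClass W hΔ (insert q Q) φ)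
    (hq : ∀ A : ValuationSubring QBar, A.LiesOverPrime q → ∀ τ ∈ A.inertiaSubgroupIn ℚ, φ τ = 0) :
    IsSelmerClass W hΔ Q φ where
  cocycle := h.cocycle
  finiteLevel := h.finiteLevel
  unramified ℓ hℓ h2 hgood hℓQ A hA τ hτ := by
    by_cases e : ℓ = q
    · subst e; exact hq A hA τ hτ
    · exact h.unramified ℓ hℓ h2 hgood (by simp [e, hℓQ]) A hA τ hτ
  bad := h.bad
  aux r hr := h.aux r (Finset.mem_insert_of_mem hr)
  two := h.two

/-- The classes of a Selmer set among finitely many representatives. -/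
def repSet (W : WeierstrassCurve ℤ) (hΔ : W.Δ ≠ 0) {ι : Type}
    (c : ι → GQ → Fin 2 → ZMod 2) (Q : Finset ℕ) : Set ι :=
  {i | ∃ φ, IsSelmerClass W hΔ Q φ ∧ IsCoboundary W hΔ fun σ => φ σ - c i σ}

/-- Detection, shrinking and finiteness give bounded auxiliary sets. -/
theorem auxPrimesExist (hdet : SelmerDetection) (hsh : SelmerShrink) (hfin : SelmerFinite) :
    AuxPrimesExist := by
  intro W hW
  have hΔ := hW.Δ_ne_zero
  obtain ⟨ι, _, c, hc⟩ := hfin W hW
  refine ⟨Nat.card ι, fun n S => ?_⟩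
  classical
  have key : ∀ k : ℕ, ∀ Q : Finset ℕ, (∀ q ∈ Q, IsAuxPrime W hΔ (n + 1) q) → Disjoint Q S →
      (∀ φ, IsSelmerClass W hΔ Q φ → IsSelmerClass W hΔ ∅ φ) →
      (repSet W hΔ c Q).ncard ≤ k → Q.card + k ≤ Nat.card ι →
      ∃ Q' : Finset ℕ, Q'.card ≤ Nat.card ι ∧ Disjoint Q' S ∧
        (∀ q ∈ Q', IsAuxPrime W hΔ (n + 1) q) ∧ SelmerTrivial W hΔ Q' := by
    intro k
    induction k with
    | zero =>
      intro Q hQ hQS hsub hcard hle
      refine ⟨Q, by omega, hQS, hQ, fun φ hφ => ?_⟩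
      obtain ⟨i, hi⟩ := hc φ (hsub φ hφ)
      have he : (repSet W hΔ c Q) = ∅ :=
        (Set.ncard_eq_zero (Set.toFinite _)).mp (Nat.le_zero.mp hcard)
      exact absurd (he ▸ (⟨φ, hφ, hi⟩ : i ∈ repSet W hΔ c Q)) (Set.notMem_empty i)
    | succ k ih =>
      intro Q hQ hQS hsub hcard hle
      by_cases htriv : SelmerTrivial W hΔ Q
      · exact ⟨Q, by omega, hQS, hQ, htriv⟩
      · simp only [SelmerTrivial, not_forall] at htriv
        obtain ⟨φ, hφ, hne⟩ := htriv
        obtain ⟨q, hqS, hq, hframe⟩ := hdet W hW Q φ hφ hne (n + 1) (S ∪ Q)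
        simp only [Finset.mem_union, not_or] at hqS
        have hQ1 : ∀ r ∈ Q, IsAuxPrime W hΔ 1 r := fun r hr => (hQ r hr).mono (by omega)
        have hstep : ∀ ψ, IsSelmerClass W hΔ (insert q Q) ψ → IsSelmerClass W hΔ Q ψ :=
          fun ψ hψ => hψ.isSelmerClass_of_forall fun A hA τ hτ => by
            obtain ⟨σ, hσ⟩ := Arith.exists_isFrobeniusAt hA hq.prime
            exact hsh W hW Q q hQ1 (hq.mono (by omega)) hqS.2 φ ψ hφ hψ A hA σ hσ
              (hframe A hA σ hσ) τ hτ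
        refine ih (insert q Q) ?_ ?_ (fun ψ hψ => hsub ψ (hstep ψ hψ)) ?_ ?_
        · intro r hr
          rcases Finset.mem_insert.mp hr with rfl | hr
          · exact hq
          · exact hQ r hr
        · exact Finset.disjoint_insert_left.mpr ⟨hqS.1, hQS⟩
        · have hsubset : repSet W hΔ c (insert q Q) ⊆ repSet W hΔ c Q :=
            fun i ⟨ψ, hψ, hi⟩ => ⟨ψ, hstep ψ hψ, hi⟩
          obtain ⟨i, hi⟩ := hc φ (hsub φ hφ)
          have hnot : i ∉ repSet W hΔ c (insert q Q) := by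
            rintro ⟨ψ, hψ, v, hv⟩
            obtain ⟨w, hw⟩ := hi
            obtain ⟨A, hA⟩ := Arith.exists_liesOverPrime hq.prime
            obtain ⟨σ, hσ⟩ := Arith.exists_isFrobeniusAt hA hq.prime
            refine hframe A hA σ hσ ?_
            have hψσ := (hψ.aux q (Finset.mem_insert_self q Q) A hA σ hσ).1
            have hdiff : φ σ = ψ σ + (rhoBar W hΔ σ - 1).mulVec (w - v) := by
              have h1 := hv σ
              have h2 := hw σ
              simp only at h1 h2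
              rw [Matrix.mulVec_sub, ← h1, ← h2]
              abel
            have hsq := (hq.mono (m := 1) (by omega)).rhoBar_sq A hA σ hσ
            rw [hdiff, Matrix.mulVec_add, hψσ, Matrix.mulVec_mulVec, mul_sub, hsq, mul_one]
            congr 1
            rw [← neg_sub (rhoBar W hΔ σ) 1, Matrix.neg_mulVec]
            exact funext fun a => ZModModule.neg_eq_self _
          have hlt : (repSet W hΔ c (insert q Q)).ncard < (repSet W hΔ c Q).ncard :=
            Set.ncard_lt_ncard ⟨hsubset, fun h => hnot (h ⟨φ, hφ, hi⟩)⟩ (Set.toFinite _)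
          omega
        · rw [Finset.card_insert_of_notMem hqS.2]
          omega
  obtain ⟨Q, h1, h2, h3, h4⟩ := key (Nat.card ι) ∅ (by simp) (Finset.disjoint_empty_left S)
    (fun φ h => h) (Set.ncard_le_card _) (by simp)
  exact ⟨Q, h1, h2, fun q hq => (h3 q hq).mono (by omega), h4⟩

theorem nat_mul_self_mod_eight {a : ℕ} (h : Odd a) : a * a % 8 = 1 := by
  obtain ⟨k, rfl⟩ := h
  obtain ⟨j, hj⟩ := Nat.even_mul_succ_self k
  have e : (2 * k + 1) * (2 * k + 1) = 4 * (k * (k + 1)) + 1 := by ring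
  rw [e, hj]
  omega

/-- The conductor level of a curve of class C is `3` modulo `8`. -/
theorem IsClassC.conductorLevel_mod_eight (hW : IsClassC W) : W.conductorLevel % 8 = 3 := by
  have hΔ := hW.Δ_ne_zero
  have hn : W.Δ.natAbs % 8 = 3 := by
    have h1 := hW.Δ_neg
    have h2 := hW.Δ_mod_eight
    omega
  have hn0 : W.Δ.natAbs ≠ 0 := Int.natAbs_ne_zero.mpr hΔ
  have hodd : ∀ q ∈ W.Δ.natAbs.primeFactors, Odd q := fun q hq => by
    refine (Nat.prime_of_mem_primeFactors hq).eq_two_or_odd'.resolve_left fun h => ?_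
    have := Nat.dvd_of_mem_primeFactors hq
    subst h
    omega
  have hfac : W.Δ.natAbs = (∏ q ∈ W.Δ.natAbs.primeFactors, q) *
      ((∏ q ∈ W.Δ.natAbs.primeFactors, q ^ ((W.Δ.natAbs.factorization q - 1) / 2)) *
        ∏ q ∈ W.Δ.natAbs.primeFactors, q ^ ((W.Δ.natAbs.factorization q - 1) / 2)) := by
    conv_lhs => rw [← Nat.prod_factorization_pow_eq_self hn0,
      Nat.prod_factorization_eq_prod_primeFactors]
    rw [← Finset.prod_mul_distrib, ← Finset.prod_mul_distrib]
    refine Finset.prod_congr rfl fun q hq => ?_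
    have hqp := Nat.prime_of_mem_primeFactors hq
    have hv : Odd (W.Δ.natAbs.factorization q) := by
      have := hW.odd_valuation q hqp (Int.natCast_dvd.mpr (Nat.dvd_of_mem_primeFactors hq))
      rwa [padicValInt, ← Nat.factorization_def _ hqp] at this
    obtain ⟨k, hk⟩ := hv
    rw [hk, show (2 * k + 1 - 1) / 2 = k by omega]
    ring
  have hsq := nat_mul_self_mod_eight (a := ∏ q ∈ W.Δ.natAbs.primeFactors,
      q ^ ((W.Δ.natAbs.factorization q - 1) / 2)) (by
    refine Finset.prod_induction _ Odd (fun a b => Odd.mul) odd_one fun q hq => ?_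
    exact (hodd q hq).pow)
  have hrad : W.conductorLevel = ∏ q ∈ W.Δ.natAbs.primeFactors, q := by
    rw [WeierstrassCurve.conductorLevel, Nat.radical_eq_prod_primeFactors]
  rw [hfac, Nat.mul_mod, hsq] at hn
  rw [hrad]
  omega

theorem IsClassC.not_dvd_conductorLevel_of_good (hW : IsClassC W) {q : ℕ} (hq : q.Prime)
    (h : W.IsGoodPrimeFor q) : ¬ q ∣ W.conductorLevel :=
  fun hd => h ((W.prime_dvd_conductorLevel_iff hW.Δ_ne_zero hq).mp hd)

theorem HasEigenPoint.mono {L : ℕ} [NeZero L] {S : Finset ℕ} {m k : ℕ}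
    (h : HasEigenPoint W L S m) (hk : k ≤ m) : HasEigenPoint W L S k := by
  obtain ⟨x, hx, hT⟩ := h
  refine ⟨(2 ^ (m - k)) • x, ?_, fun ℓ hℓ hℓS => by
    rw [map_nsmul, hT ℓ hℓ hℓS, smul_comm]⟩
  rw [addOrderOf_nsmul' x (pow_ne_zero _ two_ne_zero), hx,
    Nat.gcd_eq_right (pow_dvd_pow 2 (Nat.sub_le m k)), Nat.pow_div (Nat.sub_le m k) two_pos,
    Nat.sub_sub_self hk]

theorem HasEigenPoint.congr_level {L L' : ℕ} [NeZero L] [NeZero L'] {S : Finset ℕ} {m : ℕ}
    (e : L = L') (h : HasEigenPoint W L S m) : HasEigenPoint W L' S m := by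
  subst e; exact h

/-- The two-adic modularity theorem, given its inputs. -/
theorem twoAdicModularityInput (haux : AuxPrimesExist)
    (hforms : ∀ N : ℕ, Squarefree N → N % 8 = 3 → ∀ (D : Forms.IdealData N)
      (R : Forms.ResidualData D), Forms.ManyCongruentNewforms R)
    (hres : ResidualInput) (hlev : ResidualLevelInput) (hcong : CongruenceInput)
    (hrem : RemovalInput) (hlim : LimitInput) :
    Top.TwoAdicModularityInput Top.IsTwoAdicGood := by
  intro W hΔ hss hgood
  have hW : IsClassC W :=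
    ⟨hss, hgood.Δ_neg, hgood.Δ_emod_eight, hgood.ap_two_odd, hgood.odd_valuation⟩
  set N := W.conductorLevel with hN
  have : NeZero N := ⟨W.conductorLevel_pos.ne'⟩
  refine ⟨N, W.conductorLevel_pos, W.squarefree_conductorLevel,
    fun q hq => W.prime_dvd_conductorLevel_iff hΔ hq, hlim W hW fun m S₀ => ?_⟩
  obtain ⟨-, D, R, habar, hB⟩ := hres W hW
  obtain ⟨r, haux⟩ := haux W hW
  obtain ⟨c, hrem⟩ := hrem W hW
  set B := Fintype.card R.C
  set M := B * 2 ^ (r + 1)
  obtain ⟨Q, hcard, hdisj, hQ, htriv⟩ :=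
    haux ((m + r * c) * M ^ 2 + 1) (S₀ ∪ N.primeFactors)
  set n := (m + r * c) * M ^ 2
  have hQN : ∀ q ∈ Q, ¬ q ∣ N := fun q hq =>
    hW.not_dvd_conductorLevel_of_good (hQ q hq).prime (hQ q hq).good
  have hne : ∀ T : Finset ℕ, T ⊆ Q → N * ∏ q ∈ T, q ≠ 0 := fun T hT =>
    mul_ne_zero (NeZero.ne N) (Finset.prod_ne_zero_iff.mpr fun q hq => (hQ q (hT hq)).prime.ne_zero)
  set L := N * ∏ q ∈ Q, q
  have : NeZero L := ⟨hne Q subset_rfl⟩
  set S := insert 2 L.primeFactors
  have hSL : ∀ ℓ : ℕ, ℓ.Prime → ℓ ∣ L → ℓ ∈ S := fun ℓ hℓ hd =>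
    Finset.mem_insert_of_mem (Nat.mem_primeFactors.mpr ⟨hℓ, hd, NeZero.ne L⟩)
  obtain ⟨𝔪, h𝔪, h2⟩ := FLTPrelim.exists_maximalIdeal_natCast_prime_mem Nat.prime_two
  rw [Nat.cast_ofNat] at h2
  obtain ⟨F, hF, hFg⟩ := hforms N W.squarefree_conductorLevel hW.conductorLevel_mod_eight D R Q
    (fun q hq => ⟨⟨(hQ q hq).prime, Or.inr (hQ q hq).inert⟩, (hQ q hq).ne_two, hQN q hq⟩)
    𝔪 h𝔪 h2 (fun M hM h hh hc => hlev W hW R.abar habar L M
      (Nat.pos_of_ne_zero (NeZero.ne L)) hM 𝔪 h𝔪 h2 h hh hc)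
  have hpt := hcong W hW B R.abar hB habar R.abar_two n Q (fun q hq => hQ q hq) htriv 𝔪 h𝔪 h2
    F hF hFg
  have hk : m + r * c ≤ n / (B * 2 ^ (Q.card + 1)) ^ 2 := by
    have hB0 : 0 < B := Fintype.card_pos
    rw [Nat.le_div_iff_mul_le (pow_pos (Nat.mul_pos hB0 (pow_pos two_pos _)) 2)]
    refine Nat.mul_le_mul_left _ (Nat.pow_le_pow_left (Nat.mul_le_mul_left _ ?_) 2)
    exact Nat.pow_le_pow_right two_pos (by omega)
  have hgoodS : ∀ ℓ : ℕ, ℓ.Prime → ℓ ∉ S → W.IsGoodPrimeFor ℓ := fun ℓ hℓ hS hbad =>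
    hS (hSL ℓ hℓ (dvd_mul_of_dvd_left ((W.prime_dvd_conductorLevel_iff hΔ hℓ).mpr hbad) _))
  have hoddN : Odd N := by
    rw [Nat.odd_iff]
    have := hW.conductorLevel_mod_eight
    omega
  have step : ∀ T : Finset ℕ, (hT : T ⊆ Q) →
      @HasEigenPoint W (N * ∏ q ∈ T, q) ⟨hne T hT⟩ S (m + T.card * c) →
        HasEigenPoint W N S m := by
    intro T
    induction T using Finset.induction_on with
    | empty =>
      intro hT h
      have : NeZero (N * ∏ q ∈ (∅ : Finset ℕ), q) := ⟨hne ∅ hT⟩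
      exact (h.congr_level (by simp)).mono (by simp)
    | insert q T hq ih =>
      intro hT h
      have hqQ := hT (Finset.mem_insert_self q T)
      have hTQ : T ⊆ Q := fun x hx => hT (Finset.mem_insert_of_mem hx)
      have : NeZero (N * ∏ q ∈ T, q) := ⟨hne T hTQ⟩
      have : NeZero (N * ∏ x ∈ insert q T, x) := ⟨hne _ hT⟩
      have e : N * ∏ x ∈ insert q T, x = q * (N * ∏ x ∈ T, x) := by
        rw [Finset.prod_insert hq]; ring
      have : NeZero (q * (N * ∏ x ∈ T, x)) := ⟨e ▸ hne _ hT⟩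
      have hsq : Squarefree (q * (N * ∏ x ∈ T, x)) := by
        have hQpr : ∀ x ∈ insert q T, x.Prime := fun x hx => (hQ x (hT hx)).prime
        rw [← e]
        refine (Nat.squarefree_mul_iff).mpr ⟨Nat.coprime_prod_right_iff.mpr fun x hx => ?_,
          W.squarefree_conductorLevel, ?_⟩
        · exact Nat.Coprime.symm ((Nat.Prime.coprime_iff_not_dvd (hQpr x hx)).mpr
            (hQN x (hT hx)))
        · exact Finset.squarefree_prod_of_pairwise_isCoprime
            (fun x hx y hy hxy => Nat.coprime_iff_isRelPrime.mp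
              ((Nat.coprime_primes (hQpr x hx) (hQpr y hy)).mpr hxy))
            fun x hx => (hQpr x hx).prime.squarefree
      have hodd : Odd (q * (N * ∏ x ∈ T, x)) := by
        refine ((hQ q hqQ).prime.eq_two_or_odd'.resolve_left (hQ q hqQ).ne_two).mul
          (hoddN.mul (Finset.prod_induction _ Odd (fun a b => Odd.mul) odd_one fun x hx => ?_))
        exact (hQ x (hTQ hx)).prime.eq_two_or_odd'.resolve_left (hQ x (hTQ hx)).ne_two
      have hdvd : ∀ ℓ : ℕ, ℓ.Prime → ℓ ∣ q * (N * ∏ x ∈ T, x) → ℓ ∈ S := fun ℓ hℓ hd =>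
        hSL ℓ hℓ (hd.trans (e ▸ mul_dvd_mul_left N (Finset.prod_dvd_prod_of_subset _ _ _ hT)))
      have hle : m + (insert q T).card * c ≤ n + 1 := by
        have h1 : (insert q T).card * c ≤ r * c :=
          Nat.mul_le_mul_right c ((Finset.card_le_card hT).trans hcard)
        have h2 : m + r * c ≤ n := by
          have : 1 ≤ M ^ 2 :=
            Nat.one_le_pow _ _ (Nat.mul_pos Fintype.card_pos (pow_pos two_pos _))
          calc m + r * c = (m + r * c) * 1 := (mul_one _).symm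
            _ ≤ n := Nat.mul_le_mul_left _ this
        omega
      have h' := hrem q (N * ∏ x ∈ T, x) S (m + (insert q T).card * c) hsq hodd (dvd_mul_right _ _)
        ((hQ q hqQ).mono hle) (Finset.mem_insert_self 2 _) hdvd hgoodS (h.congr_level e)
      refine ih hTQ (h'.mono (le_of_eq ?_))
      rw [Finset.card_insert_of_notMem hq, add_mul, one_mul]
      omega
  refine ⟨S, fun ℓ hℓS hℓ hℓN hmem => ?_, step Q subset_rfl
    (hpt.mono (le_trans (Nat.add_le_add_left (Nat.mul_le_mul_right c hcard) m) hk))⟩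
  rcases Finset.mem_insert.mp hmem with rfl | hmem
  · exact hℓN (dvd_mul_right 2 N)
  · rcases hℓ.dvd_mul.mp (Nat.dvd_of_mem_primeFactors hmem) with h | h
    · exact hℓN (dvd_mul_of_dvd_right h 2)
    · obtain ⟨q, hq, hd⟩ := (Prime.dvd_finsetProd_iff hℓ.prime _).mp h
      rw [← (Nat.prime_dvd_prime_iff_eq hℓ (hQ q hq).prime).mp hd] at hq
      exact Finset.disjoint_left.mp hdisj hq (Finset.mem_union_left _ hℓS)

end Fermat.Agent.TwoAdic
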