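import Fermat.Agent.TwoAdic.Galois.Interface
import Fermat.Agent.GaloisReps.Models
import Fermat.Agent.ConductorLevel.Assembly

/-!
# Eigen points of every order give an eigenform

Points of order `2 ^ m` of `J₀(N)`, for every `m`, killed by given finite sets of `T_ℓ - a_ℓ`,
give a complex eigensystem with these `a_ℓ`, hence a normalised eigenform. The coefficient at a
prime left out is recovered from an `ℓ`-adic representation.
-/

set_option autoImplicit false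
set_option synthInstance.maxHeartbeats 400000

noncomputable section

open WeierstrassCurve ModularCurve CongruenceSubgroup ModularFormClass Polynomial
open Fermat.Agent.GaloisReps Fermat.Agent.HeckeDuality

namespace Fermat.Agent.TwoAdic

section Kernel

variable {ι κ : Type*} [Fintype κ] [DecidableEq κ]

/-- An integral family of matrices with common kernel vectors of unbounded exact order modulo
powers of `2` has a nonzero common integral kernel vector. -/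
theorem exists_common_kernel (T : Finset ι) (M : ι → Matrix κ κ ℤ)
    (h : ∀ m : ℕ, ∃ w : κ → ZMod (2 ^ m), addOrderOf w = 2 ^ m ∧
      ∀ i ∈ T, ((M i).map (Int.castRingHom _)).mulVec w = 0) :
    ∃ v : κ → ℤ, v ≠ 0 ∧ ∀ i ∈ T, (M i).mulVec v = 0 := by
  set G := ∑ i ∈ T, (M i).transpose * M i with hG
  by_cases hdet : G.det = 0
  · obtain ⟨v, hv, hGv⟩ := Matrix.exists_mulVec_eq_zero_iff.mpr hdet
    refine ⟨v, hv, fun i hi => ?_⟩
    have h0 : ∑ j ∈ T, dotProduct ((M j).mulVec v) ((M j).mulVec v) = 0 := by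
      have h1 : dotProduct v (G.mulVec v) = 0 := by rw [hGv, dotProduct_zero]
      rw [hG, Matrix.sum_mulVec, dotProduct_sum] at h1
      refine (Finset.sum_congr rfl fun j _ => ?_).trans h1
      rw [← Matrix.mulVec_mulVec, Matrix.dotProduct_mulVec v, Matrix.vecMul_transpose]
    exact dotProduct_self_eq_zero.mp
      ((Finset.sum_eq_zero_iff_of_nonneg fun j _ => Finset.sum_nonneg fun k _ =>
        mul_self_nonneg _).mp h0 i hi)
  · exfalso
    obtain ⟨w, hw, hkill⟩ := h G.det.natAbs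
    have hGw : (G.map (Int.castRingHom (ZMod (2 ^ G.det.natAbs)))).mulVec w = 0 := by
      have e : (Int.castRingHom (ZMod (2 ^ G.det.natAbs))).mapMatrix G =
          ∑ i ∈ T, ((M i).map (Int.castRingHom _)).transpose * (M i).map (Int.castRingHom _) := by
        rw [hG, map_sum]
        exact Finset.sum_congr rfl fun i _ => by rw [map_mul]; rfl
      rw [RingHom.mapMatrix_apply] at e
      rw [e, Matrix.sum_mulVec]
      exact Finset.sum_eq_zero fun i hi => by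
        rw [← Matrix.mulVec_mulVec, hkill i hi, Matrix.mulVec_zero]
    have hzero : G.det • w = 0 := by
      have e := congrArg (Int.castRingHom (ZMod (2 ^ G.det.natAbs))).mapMatrix
        (Matrix.adjugate_mul G)
      rw [map_mul, map_zsmul, map_one, RingHom.mapMatrix_apply, RingHom.mapMatrix_apply] at e
      have e' := congrArg (fun X => Matrix.mulVec X w) e
      simp only [← Matrix.mulVec_mulVec, hGw, Matrix.mulVec_zero, Matrix.smul_mulVec,
        Matrix.one_mulVec] at e'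
      exact e'.symm
    have hd := addOrderOf_dvd_iff_zsmul_eq_zero.mpr hzero
    rw [hw, Int.natCast_dvd] at hd
    exact absurd (Nat.le_of_dvd (Int.natAbs_pos.mpr hdet) hd)
      (not_le.mpr Nat.lt_two_pow_self)

end Kernel

variable {N : ℕ} [NeZero N]

/-- Eigen points of every order for finite sets of operators give an eigenform. -/
theorem exists_eigenform_of_points (a : ℕ → ℤ) (P : Set Nat.Primes)
    (h : ∀ (m : ℕ) (T : Finset Nat.Primes), ↑T ⊆ P → ∃ x : JZero N, addOrderOf x = 2 ^ m ∧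
      ∀ ℓ ∈ T, heckeOperatorBar N ℓ x = a ℓ • x) :
    ∃ f : CuspForm (Gamma0 N) 2, f.IsNormalizedEigenform ∧
      ∀ ℓ ∈ P, qCoeff f (ℓ : ℕ) = (a ℓ : ℂ) := by
  classical
  have : Fact (Nat.Prime 2) := ⟨Nat.prime_two⟩
  set d := 2 * Gamma0.genus N
  let M : Nat.Primes → Matrix (Fin d) (Fin d) ℤ := fun ℓ => opMat N ℓ ℓ.2 - a ℓ • 1
  obtain ⟨t, htP, hspan⟩ := (Submodule.fg_span_iff_fg_span_finset_subset (R := ℤ) (M '' P)).mp
    (IsNoetherian.noetherian _)
  obtain ⟨T, hTP, hT⟩ := Finset.subset_set_image_iff.mp htP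
  let E := torsionIso N 2 (conjProperty N)
  obtain ⟨v₀, hv₀, hkill⟩ := exists_common_kernel T M fun m => by
    obtain ⟨x, hx, hxT⟩ := h m T hTP
    have hxm : x ∈ JTors N 2 m := AlgebraicCurve.Pic0.mem_torsion.mpr (by
      rw [natCast_zsmul, ← hx, addOrderOf_nsmul_eq_zero])
    refine ⟨E.psi m ⟨x, hxm⟩, ?_, fun ℓ hℓ => ?_⟩
    · exact ((addOrderOf_injective (E.psi m).toAddMonoidHom (E.psi m).injective _).trans
        (AddSubgroup.addOrderOf_coe (⟨x, hxm⟩ : JTors N 2 m)).symm).trans hx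
    · have hT' : heckeTors m ⟨(ℓ : ℕ), ℓ.2⟩ ⟨x, hxm⟩ = a ℓ • (⟨x, hxm⟩ : JTors N 2 m) :=
        Subtype.ext (hxT ℓ hℓ)
      rw [Matrix.map_sub _ (map_sub _), Matrix.sub_mulVec, ← E.mat_heckeTors m ℓ ℓ.2,
        E.mat_mulVec, hT', map_zsmul, show (a ℓ • (1 : Matrix (Fin d) (Fin d) ℤ)).map
          (Int.castRingHom (ZMod (2 ^ m))) = a ℓ • 1 from ?_, Matrix.smul_mulVec,
        Matrix.one_mulVec, sub_self]
      rw [← RingHom.mapMatrix_apply, map_zsmul, map_one]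
  -- every operator kills `v₀`
  have hall : ∀ ℓ ∈ P, (M ℓ).mulVec v₀ = 0 := fun ℓ hℓ => by
    have hle : Submodule.span ℤ (M '' P) ≤
        LinearMap.ker ((Matrix.mulVecBilin ℤ ℤ).flip v₀ :
          Matrix (Fin d) (Fin d) ℤ →ₗ[ℤ] Fin d → ℤ) := by
      rw [hspan, Submodule.span_le, ← hT, Finset.coe_image]
      rintro _ ⟨i, hi, rfl⟩
      exact hkill i hi
    exact hle (Submodule.subset_span ⟨ℓ, hℓ, rfl⟩)
  -- the complex eigensystem
  let ρ : FullHecke N →+* Module.End ℂ (Fin d → ℂ) :=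
    (Matrix.toLinAlgEquiv' : Matrix (Fin d) (Fin d) ℂ ≃ₐ[ℂ] _).toRingEquiv.toRingHom.comp
      (matIn (latticeMat N) ℂ)
  let K : Submodule ℂ (Fin d → ℂ) :=
    ⨅ ℓ : P, LinearMap.ker (ρ (heckeOp N 2 (ℓ : Nat.Primes) (ℓ : Nat.Primes).2) -
      (a (ℓ : Nat.Primes) : ℂ) • LinearMap.id)
  have hρ : ∀ (t : FullHecke N) (w : Fin d → ℂ),
      ρ t w = ((latticeMat N t).map (Int.castRingHom ℂ)).mulVec w := fun t w => rfl
  have hK : K ≠ ⊥ := by
    refine (Submodule.ne_bot_iff _).mpr ⟨fun i => (v₀ i : ℂ), ?_, fun h0 => hv₀ (funext fun i =>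
      Int.cast_injective (α := ℂ) ((congrFun h0 i).trans Int.cast_zero.symm))⟩
    rw [Submodule.mem_iInf]
    intro ℓ
    have h0 := hall ℓ ℓ.2
    rw [Matrix.sub_mulVec, Matrix.smul_mulVec, Matrix.one_mulVec, sub_eq_zero] at h0
    rw [LinearMap.mem_ker, LinearMap.sub_apply, LinearMap.smul_apply, LinearMap.id_apply,
      sub_eq_zero, hρ, latticeMat_heckeOp]
    funext i
    have := (RingHom.map_mulVec (Int.castRingHom ℂ) (opMat N (ℓ : Nat.Primes) (ℓ : Nat.Primes).2) v₀ i).symm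
    rw [h0] at this
    simpa [Function.comp_def] using this
  obtain ⟨θ, v, hvK, hv, heig⟩ := exists_eigenCharacter ρ K hK fun t w hw => by
    rw [Submodule.mem_iInf] at hw ⊢
    intro ℓ
    have h' := hw ℓ
    rw [LinearMap.mem_ker, LinearMap.sub_apply, LinearMap.smul_apply, LinearMap.id_apply,
      sub_eq_zero] at h' ⊢
    rw [← Module.End.mul_apply, ← map_mul, mul_comm, map_mul, Module.End.mul_apply, h', map_smul]
  have hθ : ∀ ℓ ∈ P, θ (heckeOp N 2 (ℓ : ℕ) ℓ.2) = (a ℓ : ℂ) := fun ℓ hℓ => by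
    have h' := (Submodule.mem_iInf _).mp hvK ⟨ℓ, hℓ⟩
    rw [LinearMap.mem_ker, LinearMap.sub_apply, LinearMap.smul_apply, LinearMap.id_apply,
      heig, ← sub_smul, smul_eq_zero, sub_eq_zero] at h'
    exact h'.resolve_right hv
  obtain ⟨f₀, hf₀, hE⟩ := exists_formEigen θ
  have hmem : f₀ ∈ formEigen θ := hE ▸ Submodule.mem_span_singleton_self f₀
  set lam : ℕ → ℂ := fun ℓ => if hℓ : ℓ.Prime then θ (heckeOp N 2 ℓ hℓ) else 0 with hlam
  obtain ⟨-, hnorm, hc⟩ := isNormalizedEigenform_of_eigen hf₀ lam fun ℓ hℓ => by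
    rw [(mem_formEigen θ f₀).mp hmem, hlam]
    simp only [dif_pos hℓ]
  refine ⟨_, hnorm, fun ℓ hℓ => ?_⟩
  rw [hc ℓ ℓ.2, hlam]
  simp only [dif_pos ℓ.2]
  exact hθ ℓ hℓ

variable {W : WeierstrassCurve ℤ}

/-- The coefficient of an eigenform at one more good prime is `a_q` of the curve. -/
theorem qCoeff_eq_apOfModel_of_almost (hΔ0 : W.Δ ≠ 0) {f : CuspForm (Gamma0 N) 2}
    (hf : f.IsNormalizedEigenform) {S : Finset ℕ} (hNS : ∀ r : ℕ, r.Prime → r ∣ N → r ∈ S)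
    (hS : ∀ ℓ : ℕ, ℓ.Prime → ℓ ∉ S → W.IsGoodPrimeFor ℓ)
    (hfW : ∀ ℓ : ℕ, ℓ.Prime → ℓ ∉ S → qCoeff f ℓ = (W.apOfModel ℓ : ℂ))
    {q : ℕ} (hq : q.Prime) (hgood : W.IsGoodPrimeFor q) (hqN : ¬ q ∣ N) :
    qCoeff f q = (W.apOfModel q : ℂ) := by
  classical
  obtain ⟨lam, hlamf, hlamq, φ, hφ⟩ := ConductorLevel.exists_padic_hom
    (ConductorLevel.isIntegral_qCoeff hf hq) (B := q) hq.ne_zero
  have := hlamf
  have hlam : lam.Prime := Fact.out
  have hne : lam ≠ q := fun h => hlamq (h ▸ dvd_rfl)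
  set S₁ := (insert lam S).erase q
  have hqS₁ : q ∉ S₁ := Finset.notMem_erase q _
  have hlamS₁ : lam ∈ S₁ := Finset.mem_erase.2 ⟨hne, Finset.mem_insert_self _ _⟩
  have hnot : ∀ ℓ, ℓ ∉ S₁ → ℓ ≠ q → ℓ ∉ S := fun ℓ h hℓq hℓS =>
    h (Finset.mem_erase.2 ⟨hℓq, Finset.mem_insert_of_mem hℓS⟩)
  have hNS₁ : ∀ r : ℕ, r.Prime → r ∣ N → r ∈ S₁ := fun r hr hrN =>
    Finset.mem_erase.2 ⟨fun h => hqN (h ▸ hrN), Finset.mem_insert_of_mem (hNS r hr hrN)⟩
  have hR : (ConductorLevel.eigenChar hf (↑S₁ : Set ℕ)).range ≤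
      (Algebra.adjoin ℤ ({qCoeff f q} : Set ℂ)).toSubring :=
    ConductorLevel.eigenChar_range_le hf _ fun ℓ hℓ hℓS => by
      rcases eq_or_ne ℓ q with rfl | hℓq
      · exact Algebra.self_mem_adjoin_singleton ℤ _
      · rw [hfW ℓ hℓ (hnot ℓ (by simpa using hℓS) hℓq), ← eq_intCast (algebraMap ℤ ℂ)]
        exact Subalgebra.algebraMap_mem _ _
  let χ : CuspForm.heckeAlgebra N 2 (↑S₁ : Set ℕ) →+* ℤ_[lam] :=
    ((φ : (Algebra.adjoin ℤ ({qCoeff f q} : Set ℂ)).toSubring →+* ℤ_[lam]).comp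
      (Subring.inclusion hR)).comp (ConductorLevel.eigenChar hf (↑S₁ : Set ℕ)).rangeRestrict
  obtain ⟨O, _, _, _, _, _, _, _, _, _, hinj, ρ, hρ, -⟩ := exists_galoisRep_of_injective
    injectiveOnTorsion_all lam N S₁ hlamS₁ ℤ_[lam]
    (ConductorLevel.natCast_mem_maximalIdeal_padicInt lam) χ
  have hS' : ∀ ℓ : ℕ, ℓ.Prime → ℓ ∉ insert q S₁ → W.IsGoodPrimeFor ℓ := fun ℓ hℓ h =>
    hS ℓ hℓ (hnot ℓ (fun hh => h (Finset.mem_insert_of_mem hh))
      (fun hh => h (hh ▸ Finset.mem_insert_self _ _)))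
  have hρW : ConductorLevel.MatchesCurve ρ W (insert q S₁) := fun ℓ hℓ hℓS A hA σ hσ => by
    have hℓ₁ : ℓ ∉ S₁ := fun hh => hℓS (Finset.mem_insert_of_mem hh)
    have hℓq : ℓ ≠ q := fun hh => hℓS (hh ▸ Finset.mem_insert_self _ _)
    have hℓN : ¬ ℓ ∣ N := fun hd => hℓ₁ (hNS₁ ℓ hℓ hd)
    rw [hρ ℓ hℓ hℓN (by simpa using hℓ₁) A hA σ hσ]
    congr 4
    rw [ConductorLevel.intCast_range_map (ConductorLevel.eigenChar hf (↑S₁ : Set ℕ)) hR φ
      (by rw [ConductorLevel.eigenChar_T]; exact hfW ℓ hℓ (hnot ℓ hℓ₁ hℓq)), map_intCast]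
  have hlamO : (lam : O) ∈ IsLocalRing.maximalIdeal O := by
    rw [← map_natCast (algebraMap ℤ_[lam] O)]
    exact map_nonunit _ _ (ConductorLevel.natCast_mem_maximalIdeal_padicInt lam)
  obtain ⟨A, hA⟩ := Arith.exists_liesOverPrime hq
  obtain ⟨σ, hσ⟩ := Arith.exists_isFrobeniusAt hA hq
  have ht := ConductorLevel.trace_frobenius_of_matches hΔ0 hρW hS' hlam
    (Finset.mem_insert_of_mem hlamS₁) hlamO hq hne.symm hgood hA hσ
  have hch := (ConductorLevel.trace_det_of_charpoly ρ.finrank_eq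
    (hρ q hq hqN (by simpa using hqS₁) A hA σ hσ)).1
  refine hφ _ (hinj ?_)
  rw [map_intCast, ← ht]
  refine Eq.trans ?_ hch.symm
  simp only [χ, RingHom.comp_apply]
  congr 1
  refine congrArg φ (Subtype.ext ?_)
  exact (ConductorLevel.eigenChar_T hf hq hqN (by simpa using hqS₁)).symm

/-- **The limit step.** -/
theorem limitInput : LimitInput := by
  classical
  intro W hW _ h
  have hgood : ∀ ℓ : ℕ, ℓ.Prime → ¬ ℓ ∣ W.conductorLevel → W.IsGoodPrimeFor ℓ := fun ℓ hℓ hn hd =>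
    hn ((W.prime_dvd_conductorLevel_iff hW.Δ_ne_zero hℓ).2 hd)
  obtain ⟨f, hf, hfW⟩ := exists_eigenform_of_points (fun ℓ => W.apOfModel ℓ)
    {ℓ : Nat.Primes | ¬ (ℓ : ℕ) ∣ 2 * W.conductorLevel} fun m T hT => by
      obtain ⟨S, hS, x, hx, hxS⟩ := h m (T.image (fun ℓ : Nat.Primes => (ℓ : ℕ)))
      exact ⟨x, hx, fun ℓ hℓ => hxS ℓ ℓ.2 (hS ℓ (Finset.mem_image_of_mem _ hℓ) ℓ.2 (hT hℓ))⟩
  set S := (2 * W.conductorLevel).primeFactors
  have hmem : ∀ r : ℕ, r.Prime → r ∣ 2 * W.conductorLevel → r ∈ S := fun r hr hd =>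
    Nat.mem_primeFactors.2 ⟨hr, hd, mul_ne_zero two_ne_zero (NeZero.ne _)⟩
  refine ⟨f, hf, fun p hp hpg hpN => qCoeff_eq_apOfModel_of_almost hW.Δ_ne_zero hf
    (S := S) (fun r hr hd => hmem r hr (dvd_mul_of_dvd_right hd 2))
    (fun ℓ hℓ hℓS => hgood ℓ hℓ fun hd => hℓS (hmem ℓ hℓ (dvd_mul_of_dvd_right hd 2)))
    (fun ℓ hℓ hℓS => hfW ⟨ℓ, hℓ⟩ fun hd => hℓS (hmem ℓ hℓ hd)) hp hpg hpN⟩

end Fermat.Agent.TwoAdic

end
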