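import Fermat.Agent.TwoAdic.Galois.Assembly
import Fermat.Agent.TwoAdic.Forms.Final

/-!
# The two-adic modularity theorem with the form side discharged
-/

set_option autoImplicit false

noncomputable section

namespace Fermat.Agent.TwoAdic

/-- Two-adic modularity from the Galois side alone. -/
theorem twoAdicModularity_of_galois (hdet : SelmerDetection) (hsh : SelmerShrink)
    (hfin : SelmerFinite) (hres : ResidualInput) (hlev : ResidualLevelInput)
    (hcong : CongruenceInput) (hrem : RemovalInput) (hlim : LimitInput) :
    Top.TwoAdicModularityInput Top.IsTwoAdicGood :=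
  twoAdicModularityInput (auxPrimesExist hdet hsh hfin)
    (fun _ hN h8 _ R => Forms.manyCongruentNewforms_of_squarefree hN h8 R) hres hlev hcong hrem hlim

end Fermat.Agent.TwoAdic
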