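import Fermat.Agent.TwoAdic.Galois.Interface
import Fermat.Agent.MordellWeil.Characters
import Fermat.Agent.Arith.Minkowski

/-!
# Finitely many Selmer classes for the empty auxiliary set

On the kernel of the residual representation the classes are quadratic characters unramified
outside `2 Δ`, of which there are finitely many; a class is determined by these characters and by
its values at coset representatives.
-/

set_option autoImplicit false
set_option linter.style.haveILetI false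

noncomputable section

open WeierstrassCurve

namespace Fermat.Agent.TwoAdic

open Arith (QBar GQ)

theorem map_toMatrix_eq_one (f : ℤ_[2] × ℤ_[2] →ₗ[ℤ_[2]] ℤ_[2] × ℤ_[2])
    (key : ∀ v, PadicInt.toZMod (p := 2) (f v).1 = PadicInt.toZMod v.1 ∧
      PadicInt.toZMod (p := 2) (f v).2 = PadicInt.toZMod v.2) :
    (LinearMap.toMatrixAlgEquiv (Module.Basis.finTwoProd ℤ_[2]) f).map
      (PadicInt.toZMod (p := 2)) = 1 := by
  ext i j
  rw [Matrix.map_apply, LinearMap.toMatrixAlgEquiv_apply]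
  fin_cases i <;> fin_cases j <;> simp [key]

/-- The representation on `E[2]` has finite level. -/
theorem exists_field_rhoBar_eq_one (W : WeierstrassCurve ℤ) (hΔ : W.Δ ≠ 0) :
    ∃ L : IntermediateField ℚ QBar, FiniteDimensional ℚ L ∧
      ∀ σ : GQ, (∀ x ∈ L, σ x = x) → rhoBar W hΔ σ = 1 := by
  obtain ⟨L, hLfin, hL⟩ := (EC.Rep.tateRep W 2 hΔ).isAdicContinuous 1
  refine ⟨L, hLfin, fun σ hσ => ?_⟩
  have key : ∀ v : ℤ_[2] × ℤ_[2],
      PadicInt.toZMod (p := 2) (((EC.Rep.tateRep W 2 hΔ).ρ σ v).1) = PadicInt.toZMod v.1 ∧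
      PadicInt.toZMod (p := 2) (((EC.Rep.tateRep W 2 hΔ).ρ σ v).2) = PadicInt.toZMod v.2 := by
    intro v
    have h := hL σ hσ v
    rw [pow_one] at h
    have hle : (IsLocalRing.maximalIdeal ℤ_[2] • (⊤ : Submodule ℤ_[2] (ℤ_[2] × ℤ_[2]))) ≤
        Submodule.prod (IsLocalRing.maximalIdeal ℤ_[2]) (IsLocalRing.maximalIdeal ℤ_[2]) := by
      rw [Submodule.smul_le]
      exact fun r hr n _ => ⟨Ideal.mul_mem_right _ _ hr, Ideal.mul_mem_right _ _ hr⟩
    obtain ⟨h1, h2⟩ := hle h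
    rw [← PadicInt.ker_toZMod] at h1 h2
    exact ⟨sub_eq_zero.mp ((map_sub _ _ _).symm.trans (RingHom.mem_ker.mp h1)),
      sub_eq_zero.mp ((map_sub _ _ _).symm.trans (RingHom.mem_ker.mp h2))⟩
  show (LinearMap.toMatrixAlgEquiv (Module.Basis.finTwoProd ℤ_[2])
    ((EC.Rep.tateRep W 2 hΔ).ρ σ)).map (PadicInt.toZMod (p := 2)) = 1
  exact map_toMatrix_eq_one _ key

/-- The representation on `E[2]` is unramified outside `2 Δ`. -/
theorem rhoBar_eq_one_of_inertia {W : WeierstrassCurve ℤ} (hΔ : W.Δ ≠ 0) {ℓ : ℕ} (hℓ : ℓ.Prime)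
    (h2 : ℓ ≠ 2) (hgood : W.IsGoodPrimeFor ℓ) {A : ValuationSubring QBar}
    (hA : A.LiesOverPrime ℓ) {τ : GQ} (hτ : τ ∈ A.inertiaSubgroupIn ℚ) : rhoBar W hΔ τ = 1 := by
  have h : (EC.Rep.tateRep W 2 hΔ).ρ τ = 1 :=
    EC.Rep.isUnramifiedAt_tateRep hΔ hℓ hgood h2 A hA τ hτ
  show (LinearMap.toMatrixAlgEquiv (Module.Basis.finTwoProd ℤ_[2])
    ((EC.Rep.tateRep W 2 hΔ).ρ τ)).map (PadicInt.toZMod (p := 2)) = 1
  rw [h]
  show (LinearMap.toMatrixAlgEquiv (Module.Basis.finTwoProd ℤ_[2]) 1).map _ = 1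
  rw [map_one]
  exact Matrix.map_one _ (map_zero _) (map_one _)

theorem selmerFinite : SelmerFinite := by
  intro W hW
  classical
  set r := rhoBar W hW.Δ_ne_zero with hr
  obtain ⟨L₀, hL₀fin, hL₀⟩ := exists_field_rhoBar_eq_one W hW.Δ_ne_zero
  let N : Subgroup GQ := Arith.galKer r
  have hopen : IsOpen (N : Set GQ) := Arith.isOpen_galKer_of_fixing L₀ hL₀
  let K : IntermediateField ℚ QBar := IntermediateField.fixedField N
  have hK : K.fixingSubgroup = N :=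
    InfiniteGalois.fixingSubgroup_fixedField ⟨N, N.isClosed_of_isOpen hopen⟩
  haveI : FiniteDimensional ℚ K := (InfiniteGalois.isOpen_iff_finite K).mp (by rw [hK]; exact hopen)
  haveI : IsGalois ℚ K := (InfiniteGalois.normal_iff_isGalois K).mp (by rw [hK]; infer_instance)
  haveI : NumberField K := { to_finiteDimensional := inferInstance }
  haveI : Finite (GQ ⧸ N) := Subgroup.quotient_finite_of_isOpen N hopen
  set d := 2 * W.Δ.natAbs with hd
  have hd0 : d ≠ 0 := mul_ne_zero two_ne_zero (Int.natAbs_ne_zero.mpr hW.Δ_ne_zero)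
  have hgood : ∀ p : ℕ, p.Prime → ¬ p ∣ d → p ≠ 2 ∧ W.IsGoodPrimeFor p := fun p hp hpd =>
    ⟨fun h => hpd (h ▸ dvd_mul_right 2 _),
      fun h => hpd ((Int.natCast_dvd.mp h).mul_left 2)⟩
  have hunr : MordellWeil.UnramifiedOutside K d := fun p A hp hA hpd σ hσ x hx =>
    hx ⟨σ, Arith.mem_galKer.mpr (rhoBar_eq_one_of_inertia hW.Δ_ne_zero hp (hgood p hp hpd).1
      (hgood p hp hpd).2 hA hσ)⟩
  obtain ⟨Φ, hΦ, hΦmem⟩ := MordellWeil.exists_finite_characters hd0 hunr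
  let Cl : Type := {φ // IsSelmerClass W hW.Δ_ne_zero ∅ φ}
  have hchar : ∀ (φ : Cl) (i : Fin 2), ∃ χ ∈ Φ, ∀ h ∈ N, φ.1 h i = χ h := by
    intro φ i
    obtain ⟨L, hLfin, hL⟩ := φ.2.finiteLevel
    have := hΦmem (fun σ => φ.1 σ i) (fun g hg h _ => by
      rw [hK] at hg
      show φ.1 (g * h) i = φ.1 g i + φ.1 h i
      rw [φ.2.cocycle, Arith.mem_galKer.mp hg, Matrix.one_mulVec, Pi.add_apply])
      ⟨L, hLfin, fun σ _ hσ => by
        show φ.1 σ i = 0
        rw [hL σ hσ]; rfl⟩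
      (fun p A hp hA hpd σ hσ => by
        show φ.1 σ i = 0
        rw [φ.2.unramified p hp (hgood p hp hpd).1 (hgood p hp hpd).2 (Finset.notMem_empty p)
          A hA σ hσ]
        rfl)
    rwa [hK] at this
  choose χ hχΦ hχ using hchar
  let data : Cl → (Fin 2 → Φ) × (GQ ⧸ N → Fin 2 → ZMod 2) := fun φ =>
    (fun i => ⟨χ φ i, hχΦ φ i⟩, fun q => φ.1 q.out)
  haveI := hΦ.to_subtype
  have key : ∀ φ ψ : Cl, data φ = data ψ → φ.1 = ψ.1 := by
    intro φ ψ h
    funext σ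
    obtain ⟨n, hn⟩ := QuotientGroup.mk_out_eq_mul N σ
    set g : GQ := (QuotientGroup.mk σ : GQ ⧸ N).out
    have hσ : σ = g * (↑n⁻¹ : GQ) := by rw [hn, Subgroup.coe_inv, mul_inv_cancel_right]
    have h2 : φ.1 g = ψ.1 g := congrFun (congrArg Prod.snd h) (QuotientGroup.mk σ)
    have h1 : φ.1 (↑n⁻¹ : GQ) = ψ.1 (↑n⁻¹ : GQ) := funext fun i => by
      rw [hχ φ i _ n⁻¹.2, hχ ψ i _ n⁻¹.2]
      exact congrFun (congrArg Subtype.val (congrFun (congrArg Prod.fst h) i)) _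
    rw [hσ, φ.2.cocycle, ψ.2.cocycle, h1, h2]
  refine ⟨Set.range data, inferInstance, fun q => q.2.choose.1, fun φ hφ => ?_⟩
  refine ⟨⟨data ⟨φ, hφ⟩, _, rfl⟩, 0, fun σ => ?_⟩
  have he := key _ _ (Exists.choose_spec (⟨⟨φ, hφ⟩, rfl⟩ : ∃ y, data y = data ⟨φ, hφ⟩))
  rw [Matrix.mulVec_zero, sub_eq_zero]
  exact (congrFun he σ).symm

end Fermat.Agent.TwoAdic
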