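import Fermat.Agent.TwoAdic.Galois.Reduced
import Fermat.Agent.TwoAdic.Selmer.Detection
import Fermat.Agent.TwoAdic.Galois.SelmerFinite

/-!
# The two-adic modularity theorem with detection and finiteness of the Selmer classes discharged
-/

set_option autoImplicit false

noncomputable section

namespace Fermat.Agent.TwoAdic

/-- Two-adic modularity from the inputs not yet discharged. -/
theorem twoAdicModularity_of_remaining (hsh : SelmerShrink) (hres : ResidualInput)
    (hlev : ResidualLevelInput) (hcong : CongruenceInput) (hrem : RemovalInput)
    (hlim : LimitInput) : Top.TwoAdicModularityInput Top.IsTwoAdicGood :=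
  twoAdicModularity_of_galois selmerDetection hsh selmerFinite hres hlev hcong hrem hlim

end Fermat.Agent.TwoAdic
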