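import Fermat.Agent.TwoAdic.Galois.Residual
import Fermat.Agent.TwoAdic.Galois.Interface
import Fermat.Agent.GaloisReps.Models
import Fermat.Agent.EC.FrobTrace.LinearAlgebra
import Fermat.Agent.Arith.Chebotarev.Main

/-!
# A congruent newform has level divisible by every bad prime

If a bad prime `q` does not divide the level, the residual representation of the form is
unramified at `q` and has the traces of `rhoBar` everywhere, so translation by a transposition
in inertia at `q` preserves all traces of `rhoBar`, which is then reducible.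
-/

set_option autoImplicit false

noncomputable section

open WeierstrassCurve Polynomial CongruenceSubgroup

namespace Fermat.Agent.TwoAdic

open Arith (QBar GQ)

/-- The residual representation factors through a number field. -/
theorem isFiniteLevel_rhoBar (W : WeierstrassCurve ℤ) (hΔ : W.Δ ≠ 0) :
    IsFiniteLevel (rhoBar W hΔ) := by
  obtain ⟨L, hLfin, hL⟩ := isFiniteLevel_rhoPow hΔ 1
  refine ⟨L, hLfin, fun σ hσ => ?_⟩
  rw [← rhoPow_map hΔ (ZMod.castHom (dvd_pow_self 2 one_ne_zero) (ZMod 2)) σ, hL σ hσ]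
  exact Matrix.map_one _ (map_zero _) (map_one _)

/-- Translation by a nontrivial element of `SL₂(𝔽₂)` changes some trace. -/
theorem m2_exists_trace_mul_ne : ∀ X : M2 (ZMod 2), X.det = 1 → X ≠ 1 →
    ∃ Y : M2 (ZMod 2), Y.det = 1 ∧ (X * Y).trace ≠ Y.trace := by
  decide

/-- A congruent newform has level divisible by every bad prime. -/
theorem residualLevelInput : ResidualLevelInput := by
  intro W hW abar habar L M hL hML 𝔪 h𝔪 h2 g hg hcong
  classical
  have hM : NeZero M := ⟨fun h => hL.ne' (Nat.eq_zero_of_zero_dvd (h ▸ hML))⟩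
  have hsf := W.squarefree_conductorLevel
  rw [← Nat.prod_primeFactors_of_squarefree hsf]
  refine Finset.prod_primes_dvd M (fun q hq => (Nat.prime_of_mem_primeFactors hq).prime)
    fun q hq => ?_
  have hqp : q.Prime := Nat.prime_of_mem_primeFactors hq
  have hqΔ := (W.prime_dvd_conductorLevel_iff hW.Δ_ne_zero hqp).mp (Nat.dvd_of_mem_primeFactors hq)
  by_contra hqM
  let : Field (Forms.ZBar ⧸ 𝔪) := Ideal.Quotient.field 𝔪
  have : CharP (Forms.ZBar ⧸ 𝔪) 2 := by
    refine (CharP.charP_iff_prime_eq_zero Nat.prime_two).mpr ?_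
    rw [← map_natCast (Ideal.Quotient.mk 𝔪), Ideal.Quotient.eq_zero_iff_mem]
    exact_mod_cast h2
  obtain ⟨ρ, hatt, hunr⟩ := GaloisReps.exists_residual_eigenform
    (fun N p => GaloisReps.nonempty_heckeGaloisModel N p) hg.1 Nat.prime_two (Ideal.Quotient.mk 𝔪)
  set j : ZMod 2 →+* Forms.ZBar ⧸ 𝔪 := ZMod.castHom dvd_rfl _
  set r := rhoBar W hW.Δ_ne_zero
  -- the two representations have the same traces
  have htrace : ∀ σ : GQ, LinearMap.trace _ _ (ρ.ρ σ) = j (r σ).trace := by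
    intro σ
    obtain ⟨L₁, hL₁, h₁⟩ := ρ.factorsThroughFiniteLevel
    obtain ⟨L₂, hL₂, h₂⟩ := isFiniteLevel_rhoBar W hW.Δ_ne_zero
    obtain ⟨ℓ, hℓ, hℓT, A, hA, F, hF, he⟩ := Arith.Chebotarev.exists_frobenius_eq
      (ρ.ρ.prod r) (L₁ ⊔ L₂) (fun τ hτ => Prod.ext
        (h₁ τ fun x hx => hτ x ((le_sup_left : L₁ ≤ L₁ ⊔ L₂) hx))
        (h₂ τ fun x hx => hτ x ((le_sup_right : L₂ ≤ L₁ ⊔ L₂) hx))) σ
      (2 * L * W.Δ.natAbs).primeFactors
    have hℓdvd : ¬ ℓ ∣ 2 * L * W.Δ.natAbs := fun h => hℓT (Nat.mem_primeFactors.mpr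
      ⟨hℓ, h, mul_ne_zero (mul_ne_zero two_ne_zero hL.ne')
        (Int.natAbs_ne_zero.mpr hW.Δ_ne_zero)⟩)
    have hℓL : ¬ ℓ ∣ L := fun h => hℓdvd (dvd_mul_of_dvd_left (dvd_mul_of_dvd_right h _) _)
    have hℓ2 : ℓ ≠ 2 := fun h => hℓdvd (dvd_mul_of_dvd_left (dvd_mul_of_dvd_left (h ▸ dvd_rfl) _) _)
    have hgood : W.IsGoodPrimeFor ℓ := fun h =>
      hℓdvd (dvd_mul_of_dvd_right (Int.natCast_dvd.mp h) _)
    have hℓk : (ℓ : Forms.ZBar ⧸ 𝔪) ≠ 0 := fun h =>
      hℓ2 ((Nat.prime_dvd_prime_iff_eq Nat.prime_two hℓ).mp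
        ((CharP.cast_eq_zero_iff _ 2 ℓ).mp h)).symm
    obtain ⟨a, ha, hchar⟩ := hatt ℓ hℓ (fun h => hℓL (h.trans hML)) hℓk A hA F hF
    obtain ⟨a', ha', hmem⟩ := hcong ℓ hℓ hℓL
    have haa : a = a' := Subtype.ext (ha.trans ha'.symm)
    rw [EC.FrobTrace.charpoly_of_finrank_eq_two ρ.finrank_eq] at hchar
    have h1 : LinearMap.trace _ _ (ρ.ρ F) = Ideal.Quotient.mk 𝔪 a := by
      have := congrArg (fun p => Polynomial.coeff p 1) hchar
      simpa [coeff_X_pow, coeff_C] using this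
    have h3 : Ideal.Quotient.mk 𝔪 a = j (r F).trace := by
      rw [haa, (Ideal.Quotient.mk_eq_mk_iff_sub_mem _ _).mpr hmem, map_natCast,
        ← map_natCast j, ZMod.natCast_zmod_val, habar ℓ hℓ hℓ2 hgood]
      congr 1
      have h4 := congrArg (PadicInt.toZMod (p := 2))
        (rho_frobenius hW.Δ_ne_zero hℓ hℓ2 hgood hA hF).1
      rw [map_intCast] at h4
      rw [← h4]
      exact AddMonoidHom.map_trace (PadicInt.toZMod (p := 2)).toAddMonoidHom _
    rw [show ρ.ρ σ = ρ.ρ F from (congrArg Prod.fst he).symm,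
      show r σ = r F from (congrArg Prod.snd he).symm, h1, h3]
  obtain ⟨A, hA⟩ := Arith.exists_liesOverPrime hqp
  obtain ⟨τ, hτ, hne⟩ := exists_inertia_rhoBar_ne_one hW hqp hqΔ hA
  have hρτ : ρ.ρ τ = 1 := hunr q hqp (fun h => (hqp.dvd_mul.mp h).elim hqM fun h' => by
    exact hW.ne_two_of_dvd hqΔ ((Nat.prime_dvd_prime_iff_eq hqp Nat.prime_two).mp h')) A hA τ hτ
  obtain ⟨Y, hY, hne'⟩ := m2_exists_trace_mul_ne (r τ) (rhoBar_det _ τ) hne
  obtain ⟨σ, rfl⟩ := exists_rhoBar_eq hW hY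
  exact hne' (j.injective (by rw [← map_mul, ← htrace, ← htrace, map_mul, hρτ, one_mul]))

end Fermat.Agent.TwoAdic
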