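import Fermat.Agent.TwoAdic.Galois.Basic
import Fermat.Agent.TwoAdic.Selmer.GroupLemma

/-!
# The two-torsion and the square root of the discriminant

The abscissae of the points of order `2` in the basis of `rho`, the square root `sqrtDisc` of `Δ`
made from them, and the absence of a rational root of the two-division cubic of a class C curve.
-/

set_option autoImplicit false

noncomputable section

open WeierstrassCurve Matrix

namespace Fermat.Agent.TwoAdic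

open Arith (QBar GQ)

/-! ### The cubic over `ℤ` -/

theorem natAbs_eq_one_of_odd {m : ℤ} (hm : Odd m)
    (h : ∀ p : ℕ, p.Prime → p ≠ 2 → ¬ (p : ℤ) ∣ m) : m = 1 ∨ m = -1 := by
  have h1 : m.natAbs = 1 := by
    by_contra hne
    obtain ⟨p, hp, hpd⟩ := Nat.exists_prime_and_dvd hne
    refine h p hp ?_ (Int.natCast_dvd.mpr hpd)
    rintro rfl
    exact Nat.not_even_iff_odd.mpr (Int.natAbs_odd.mpr hm) (even_iff_two_dvd.mpr hpd)
  omega

/-- The monic two-division cubic of a class C curve has no integral root. -/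
theorem cubic_ne_zero_int {W : WeierstrassCurve ℤ} (hW : IsClassC W) (t : ℤ) :
    t ^ 3 + W.b₂ * t ^ 2 + 8 * W.b₄ * t + 16 * W.b₆ ≠ 0 := by
  intro h0
  have hr : 4 * W.b₈ = W.b₂ * W.b₆ - W.b₄ ^ 2 := W.b_relation
  have hΔodd : Odd W.Δ := Int.odd_iff.mpr (by have := hW.Δ_mod_eight; omega)
  set a : ℤ := 3 * t + W.b₂ with ha
  set b : ℤ := 3 * t ^ 2 + 2 * W.b₂ * t + 8 * W.b₄ with hb
  have key : b ^ 2 * (a ^ 2 - 4 * b) = 256 * W.Δ := by
    rw [ha, hb, WeierstrassCurve.Δ]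
    linear_combination (-(-4 * W.b₂ ^ 3
        - 27 * (16 * W.b₆ - t ^ 3 - W.b₂ * t ^ 2 - 8 * W.b₄ * t) + 144 * W.b₂ * W.b₄)) * h0 +
      64 * W.b₂ ^ 2 * hr
  have hc₄ : a ^ 2 - 3 * b = W.c₄ := by rw [ha, hb, WeierstrassCurve.c₄]; ring
  have hdisc0 : a ^ 2 - 4 * b ≠ 0 := fun h => hW.Δ_ne_zero (by
    rw [h, mul_zero] at key; omega)
  have hb0 : b ≠ 0 := fun h => hW.Δ_ne_zero (by
    rw [h, zero_pow two_ne_zero, zero_mul] at key; omega)
  have hb_odd_prime : ∀ p : ℕ, p.Prime → p ≠ 2 → ¬ (p : ℤ) ∣ b := by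
    intro p hp hp2 hpb
    have : Fact p.Prime := ⟨hp⟩
    have hpp : Prime (p : ℤ) := Nat.prime_iff_prime_int.mp hp
    have hp256 : ¬ (p : ℤ) ∣ 256 := fun h => hp2 (by
      have h' : (p : ℤ) ∣ (2 : ℤ) ^ 8 := by norm_num; exact h
      exact (Nat.prime_dvd_prime_iff_eq hp Nat.prime_two).mp
        (Int.natCast_dvd_natCast.mp (by exact_mod_cast hpp.dvd_of_dvd_pow h')))
    have hpΔ : (p : ℤ) ∣ W.Δ := by
      refine (hpp.dvd_or_dvd ?_).resolve_left hp256
      rw [← key, pow_two, mul_assoc]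
      exact hpb.mul_right _
    have hpd : (p : ℤ) ∣ a ^ 2 - 4 * b := by
      by_contra hd
      obtain ⟨k, hk⟩ := hW.odd_valuation p hp hpΔ
      have h1 := congrArg (padicValInt p) key
      rw [padicValInt.mul (pow_ne_zero 2 hb0) hdisc0, padicValInt.mul (by norm_num) hW.Δ_ne_zero,
        padicValInt.eq_zero_of_not_dvd hd, padicValInt.eq_zero_of_not_dvd hp256, pow_two,
        padicValInt.mul hb0 hb0] at h1
      omega
    have hpa : (p : ℤ) ∣ a := hpp.dvd_of_dvd_pow (n := 2) (by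
      simpa using hpd.add (hpb.mul_left 4))
    exact hW.semistable p hp hpΔ (hc₄ ▸ dvd_sub (dvd_pow hpa two_ne_zero) (hpb.mul_left 3))
  rcases Int.even_or_odd t with ⟨s, hs⟩ | ht
  · -- `t` is even
    have h2 : 2 * s ^ 3 + W.b₂ * s ^ 2 + 4 * W.b₄ * s + 4 * W.b₆ = 0 := by
      subst hs; linarith [show (s + s) ^ 3 = 8 * s ^ 3 by ring, show (s + s) ^ 2 = 4 * s ^ 2 by ring]
    obtain ⟨u, hu⟩ : Even s := by
      by_contra hso
      rw [Int.not_even_iff_odd] at hso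
      obtain ⟨c, hc⟩ : Even W.b₂ := by
        by_contra hb2
        rw [Int.not_even_iff_odd] at hb2
        have := hb2.mul (hso.pow (n := 2))
        have h3 : Even (W.b₂ * s ^ 2) := ⟨-(s ^ 3 + 2 * W.b₄ * s + 2 * W.b₆), by linarith⟩
        exact Int.not_even_iff_odd.mpr this h3
      have ha1 : Even W.a₁ := by
        rw [← Int.even_pow' (n := 2) two_ne_zero]
        exact ⟨c - 2 * W.a₂, by rw [WeierstrassCurve.b₂] at hc; linarith⟩
      obtain ⟨d, hd⟩ := ha1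
      have hc2 : c = 2 * (d ^ 2 + W.a₂) := by
        rw [WeierstrassCurve.b₂, hd] at hc
        linarith [show (d + d) ^ 2 = 4 * d ^ 2 by ring]
      have h3 : Even (s ^ 3) := ⟨-((d ^ 2 + W.a₂) * s ^ 2 + W.b₄ * s + W.b₆), by
        rw [hc, hc2] at h2; linarith⟩
      exact Int.not_even_iff_odd.mpr (hso.pow) h3
    have h4 : 4 * u ^ 3 + W.b₂ * u ^ 2 + 2 * W.b₄ * u + W.b₆ = 0 := by
      subst hu; linarith [show (u + u) ^ 3 = 8 * u ^ 3 by ring, show (u + u) ^ 2 = 4 * u ^ 2 by ring]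
    have hb2odd : Odd W.b₂ := by
      rw [← Int.not_even_iff_odd]
      rintro ⟨c, hc⟩
      have hb6 : Even W.b₆ := ⟨-(2 * u ^ 3 + c * u ^ 2 + W.b₄ * u), by rw [hc] at h4; linarith⟩
      obtain ⟨e, he⟩ := hb6
      exact Int.not_even_iff_odd.mpr hΔodd ⟨-2 * c ^ 2 * W.b₈ - 4 * W.b₄ ^ 3 - 54 * e ^ 2
          + 18 * c * W.b₄ * e, by rw [WeierstrassCurve.Δ, hc, he]; ring⟩
    have haodd : Odd a := by
      rw [ha, show t = 2 * (2 * u) by omega]
      exact (show Even (3 * (2 * (2 * u))) from ⟨6 * u, by ring⟩).add_odd hb2odd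
    set m : ℤ := 6 * u ^ 2 + W.b₂ * u + W.b₄ with hm
    have hb8 : b = 8 * m := by rw [hb, hm, show t = 4 * u by omega]; ring
    have hkey2 : m ^ 2 * (a ^ 2 - 32 * m) = 4 * W.Δ := by
      rw [hb8] at key; linarith [show (8 * m) ^ 2 * (a ^ 2 - 4 * (8 * m)) =
        64 * (m ^ 2 * (a ^ 2 - 32 * m)) by ring]
    have hoddf : Odd (a ^ 2 - 32 * m) :=
      haodd.pow.sub_even ⟨16 * m, by ring⟩
    obtain ⟨m', hm'⟩ : Even m := by
      by_contra hmo
      rw [Int.not_even_iff_odd] at hmo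
      exact Int.not_even_iff_odd.mpr ((hmo.pow (n := 2)).mul hoddf) ⟨2 * W.Δ, by linarith⟩
    have hkey3 : m' ^ 2 * (a ^ 2 - 64 * m') = W.Δ := by
      rw [hm'] at hkey2; linarith [show (m' + m') ^ 2 * (a ^ 2 - 32 * (m' + m')) =
        4 * (m' ^ 2 * (a ^ 2 - 64 * m')) by ring]
    have hm'odd : Odd m' := by
      rw [← hkey3, Int.odd_mul, Int.odd_pow' two_ne_zero] at hΔodd
      exact hΔodd.1
    obtain ⟨w, hw⟩ := haodd
    have hpar : ∃ v, w * (w + 1) = 2 * v := by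
      obtain ⟨v, hv⟩ := Int.even_mul_succ_self w
      exact ⟨v, by omega⟩
    obtain ⟨v, hv⟩ := hpar
    have ha8 : a ^ 2 = 8 * v + 1 := by
      rw [hw]; linarith [show (2 * w + 1) ^ 2 = 4 * (w * (w + 1)) + 1 by ring]
    have := hW.Δ_mod_eight
    rcases natAbs_eq_one_of_odd hm'odd (fun p hp hp2 hpd => hb_odd_prime p hp hp2
      (by rw [hb8, hm']; exact (hpd.add hpd).mul_left 8)) with h | h
    · rw [h, ha8] at hkey3; omega
    · rw [h, ha8] at hkey3; omega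
  · -- `t` is odd
    have hb_odd : Odd b := by
      have h3 : Odd (3 * t ^ 2) := (show Odd (3 : ℤ) by decide).mul ht.pow
      rw [hb, add_assoc]
      exact h3.add_even ⟨W.b₂ * t + 4 * W.b₄, by ring⟩
    have haeven : Even a := by
      have h1 : Even (t ^ 2 * (t + W.b₂)) :=
        ⟨-(4 * W.b₄ * t + 8 * W.b₆), by linear_combination h0⟩
      rcases Int.even_mul.mp h1 with h2 | h2
      · exact absurd (Int.not_even_iff_odd.mpr ht) (by
          simp [(Int.even_pow' two_ne_zero).mp h2])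
      · obtain ⟨c, hc⟩ := h2
        exact ⟨t + c, by rw [ha]; linarith⟩
    obtain ⟨a', ha'⟩ := haeven
    have hneg := hW.Δ_neg
    have hsq : 0 ≤ a' ^ 2 := sq_nonneg a'
    rcases natAbs_eq_one_of_odd hb_odd hb_odd_prime with h | h
    · rw [h, ha'] at key
      have e : a' ^ 2 = 64 * W.Δ + 1 := by linarith [show (a' + a') ^ 2 = 4 * a' ^ 2 by ring]
      linarith
    · rw [h, ha'] at key
      have e : a' ^ 2 = 64 * W.Δ - 1 := by linarith [show (a' + a') ^ 2 = 4 * a' ^ 2 by ring]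
      linarith

/-- The two-division cubic of a class C curve has no rational root. -/
theorem cubic_ne_zero_rat {W : WeierstrassCurve ℤ} (hW : IsClassC W) (x : ℚ) :
    4 * x ^ 3 + (W.b₂ : ℚ) * x ^ 2 + 2 * (W.b₄ : ℚ) * x + (W.b₆ : ℚ) ≠ 0 := by
  intro h
  have hint : _root_.IsIntegral ℤ (4 * x) := by
    refine ⟨Polynomial.X ^ 3 + Polynomial.C W.b₂ * Polynomial.X ^ 2
      + Polynomial.C (8 * W.b₄) * Polynomial.X + Polynomial.C (16 * W.b₆), by monicity!, ?_⟩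
    simp only [Polynomial.eval₂_add, Polynomial.eval₂_mul, Polynomial.eval₂_X_pow,
      Polynomial.eval₂_X, Polynomial.eval₂_C, algebraMap_int_eq, Int.coe_castRingHom]
    push_cast
    linear_combination 16 * h
  obtain ⟨t, ht⟩ := (IsIntegrallyClosed.isIntegral_iff (R := ℤ) (K := ℚ)).mp hint
  replace ht : (t : ℚ) = 4 * x := ht
  apply cubic_ne_zero_int hW t
  have : ((t ^ 3 + W.b₂ * t ^ 2 + 8 * W.b₄ * t + 16 * W.b₆ : ℤ) : ℚ) = 0 := by
    push_cast
    rw [ht]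
    linear_combination 16 * h
  exact_mod_cast this

/-! ### The points of order two -/

variable {W : WeierstrassCurve ℤ} (hΔ : W.Δ ≠ 0)

/-- A lift of a residual vector to the Tate module. -/
def liftVec (v : Fin 2 → ZMod 2) : (EC.Rep.tateRep W 2 hΔ).V :=
  ((((v 0).val : ℤ_[2]), ((v 1).val : ℤ_[2])) : ℤ_[2] × ℤ_[2])

/-- The two-torsion point with given coordinates. -/
def twoPt (v : Fin 2 → ZMod 2) : EC.Rep.PtQ W := EC.Rep.tateRed hΔ 1 (liftVec hΔ v)

theorem mem_span_two_iff (x : ℤ_[2]) :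
    x ∈ Ideal.span {((2 : ℕ) : ℤ_[2]) ^ 1} ↔ PadicInt.toZMod x = 0 := by
  rw [← RingHom.mem_ker, PadicInt.ker_toZMod, PadicInt.maximalIdeal_eq_span_p, pow_one]

theorem tateRed_one_eq_twoPt (y : (EC.Rep.tateRep W 2 hΔ).V) :
    EC.Rep.tateRed hΔ 1 y = twoPt hΔ
      ![PadicInt.toZMod (y : ℤ_[2] × ℤ_[2]).1, PadicInt.toZMod (y : ℤ_[2] × ℤ_[2]).2] := by
  refine (EC.Rep.tateBasis W 2 hΔ).red_congr ?_ ?_ <;>
  · rw [mem_span_two_iff, map_sub]
    simp only [liftVec, Matrix.cons_val_zero, Matrix.cons_val_one, map_natCast,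
      ZMod.natCast_zmod_val, sub_self]

theorem smul_twoPt (σ : GQ) (v : Fin 2 → ZMod 2) :
    σ • twoPt hΔ v = twoPt hΔ (rhoBar W hΔ σ *ᵥ v) := by
  rw [twoPt, ← EC.Rep.red_tateRep, tateRed_one_eq_twoPt]
  congr 1
  have h := congrArg (fun w : Fin 2 → ℤ_[2] => PadicInt.toZMod (p := 2) ∘ w)
    (rho_mulVec hΔ σ (liftVec hΔ v))
  rw [tateCoord_repr, tateCoord_repr] at h
  have e1 : PadicInt.toZMod (p := 2) ∘
      ![(liftVec hΔ v : ℤ_[2] × ℤ_[2]).1, (liftVec hΔ v : ℤ_[2] × ℤ_[2]).2] = v := by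
    funext i
    fin_cases i <;> simp [liftVec]
  have e2 : PadicInt.toZMod (p := 2) ∘ (rho W hΔ σ *ᵥ ![(liftVec hΔ v : ℤ_[2] × ℤ_[2]).1, (liftVec hΔ v : ℤ_[2] × ℤ_[2]).2]) =
      rhoBar W hΔ σ *ᵥ v := by
    funext i
    rw [Function.comp_apply, RingHom.map_mulVec, e1, rhoBar_eq]
  rw [← e2, h]
  funext i
  fin_cases i <;> rfl

theorem twoPt_injective : Function.Injective (twoPt hΔ) := by
  intro v w h
  have h0 : EC.Rep.tateRed hΔ 1 (liftVec hΔ v - liftVec hΔ w) = 0 := by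
    rw [map_sub]; exact sub_eq_zero.mpr h
  obtain ⟨h1, h2⟩ := (EC.Rep.tateRed_eq_zero_iff hΔ 1 _).mp h0
  rw [mem_span_two_iff] at h1 h2
  change PadicInt.toZMod (((v 0).val : ℤ_[2]) - ((w 0).val : ℤ_[2])) = 0 at h1
  change PadicInt.toZMod (((v 1).val : ℤ_[2]) - ((w 1).val : ℤ_[2])) = 0 at h2
  rw [map_sub, map_natCast, map_natCast, ZMod.natCast_zmod_val, ZMod.natCast_zmod_val,
    sub_eq_zero] at h1 h2
  funext i
  fin_cases i
  · exact h1
  · exact h2

theorem twoPt_zero : twoPt hΔ 0 = 0 := by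
  rw [twoPt, show liftVec hΔ (0 : Fin 2 → ZMod 2) = 0 by
    show ((_, _) : ℤ_[2] × ℤ_[2]) = 0
    simp]
  exact map_zero _

theorem twoPt_add_self (v : Fin 2 → ZMod 2) : twoPt hΔ v + twoPt hΔ v = 0 := by
  have h := EC.Rep.pow_smul_tateRed hΔ 1 (liftVec hΔ v)
  rw [pow_one] at h
  rw [← two_zsmul]
  exact h

/-- The abscissa of a point. -/
def ptX : EC.Rep.PtQ W → QBar
  | .zero => 0
  | .some x _ _ => x

theorem ptX_smul (σ : GQ) (P : EC.Rep.PtQ W) : ptX (σ • P) = σ (ptX P) := by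
  match P with
  | .zero => exact (map_zero σ).symm
  | .some x y h => rfl

/-- The abscissa of the two-torsion point with given coordinates. -/
def twoX (v : Fin 2 → ZMod 2) : QBar := ptX (twoPt hΔ v)

theorem smul_twoX (σ : GQ) (v : Fin 2 → ZMod 2) :
    σ (twoX hΔ v) = twoX hΔ (rhoBar W hΔ σ *ᵥ v) := by
  rw [twoX, twoX, ← smul_twoPt, ptX_smul]

theorem exists_twoPt_eq {v : Fin 2 → ZMod 2} (hv : v ≠ 0) :
    ∃ y h, twoPt hΔ v = .some (twoX hΔ v) y h ∧
      2 * y + (W.a₁ : QBar) * twoX hΔ v + (W.a₃ : QBar) = 0 := by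
  rcases hP : twoPt hΔ v with _ | ⟨x, y, h⟩
  · exact absurd (twoPt_injective hΔ (hP.trans (twoPt_zero hΔ).symm)) hv
  have hx : twoX hΔ v = x := by rw [twoX, hP]; rfl
  subst hx
  refine ⟨y, h, rfl, ?_⟩
  have hneg : twoPt hΔ v = -twoPt hΔ v := eq_neg_of_add_eq_zero_left (twoPt_add_self hΔ v)
  rw [hP, Affine.Point.neg_some, Affine.Point.some.injEq] at hneg
  have h2 := hneg.2
  simp only [Affine.negY, Affine.baseChange, WeierstrassCurve.baseChange, map_a₁, map_a₃,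
    eq_intCast, map_intCast] at h2
  linear_combination h2

theorem twoX_root {v : Fin 2 → ZMod 2} (hv : v ≠ 0) :
    4 * twoX hΔ v ^ 3 + (W.b₂ : QBar) * twoX hΔ v ^ 2 + 2 * (W.b₄ : QBar) * twoX hΔ v
      + (W.b₆ : QBar) = 0 := by
  obtain ⟨y, h, -, hy⟩ := exists_twoPt_eq hΔ hv
  have he := (Affine.equation_iff ..).mp h.1
  simp only [Affine.baseChange, WeierstrassCurve.baseChange, map_a₁, map_a₂, map_a₃, map_a₄,
    map_a₆, eq_intCast, map_intCast] at he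
  simp only [WeierstrassCurve.b₂, WeierstrassCurve.b₄, WeierstrassCurve.b₆]
  push_cast
  linear_combination (2 * y + (W.a₁ : QBar) * twoX hΔ v + (W.a₃ : QBar)) * hy - 4 * he

theorem twoX_injective {v w : Fin 2 → ZMod 2} (hv : v ≠ 0) (hw : w ≠ 0)
    (h : twoX hΔ v = twoX hΔ w) : v = w := by
  obtain ⟨y, hns, e, hy⟩ := exists_twoPt_eq hΔ hv
  obtain ⟨y', hns', e', hy'⟩ := exists_twoPt_eq hΔ hw
  apply twoPt_injective hΔ
  have : y = y' := mul_left_cancel₀ two_ne_zero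
    (by rw [← h] at hy'; linear_combination hy - hy')
  rw [e, e', Affine.Point.some.injEq]
  exact ⟨h, this⟩

/-- The square root of the discriminant made from the abscissae. -/
def sqrtDisc : QBar :=
  4 * (twoX hΔ ![1, 0] - twoX hΔ ![0, 1]) * (twoX hΔ ![1, 0] - twoX hΔ ![1, 1]) *
    (twoX hΔ ![0, 1] - twoX hΔ ![1, 1])

theorem sqrtDisc_sq : sqrtDisc hΔ ^ 2 = (W.Δ : QBar) := by
  have n1 : (![1, 0] : Fin 2 → ZMod 2) ≠ 0 := by decide
  have n2 : (![0, 1] : Fin 2 → ZMod 2) ≠ 0 := by decide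
  have n3 : (![1, 1] : Fin 2 → ZMod 2) ≠ 0 := by decide
  have ha := twoX_root hΔ n1
  have hb := twoX_root hΔ n2
  have hc := twoX_root hΔ n3
  have hab : twoX hΔ ![1, 0] - twoX hΔ ![0, 1] ≠ 0 :=
    sub_ne_zero.mpr fun h => absurd (twoX_injective hΔ n1 n2 h) (by decide)
  have hac : twoX hΔ ![1, 0] - twoX hΔ ![1, 1] ≠ 0 :=
    sub_ne_zero.mpr fun h => absurd (twoX_injective hΔ n1 n3 h) (by decide)
  have hbc : twoX hΔ ![0, 1] - twoX hΔ ![1, 1] ≠ 0 :=
    sub_ne_zero.mpr fun h => absurd (twoX_injective hΔ n2 n3 h) (by decide)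
  unfold sqrtDisc
  set a := twoX hΔ ![1, 0]
  set b := twoX hΔ ![0, 1]
  set c := twoX hΔ ![1, 1]
  have e1 : 4 * (a ^ 2 + a * b + b ^ 2) + (W.b₂ : QBar) * (a + b) + 2 * (W.b₄ : QBar) = 0 :=
    (mul_eq_zero.mp (show (a - b) * (4 * (a ^ 2 + a * b + b ^ 2) + (W.b₂ : QBar) * (a + b)
      + 2 * (W.b₄ : QBar)) = 0 by linear_combination ha - hb)).resolve_left hab
  have e2 : 4 * (a ^ 2 + a * c + c ^ 2) + (W.b₂ : QBar) * (a + c) + 2 * (W.b₄ : QBar) = 0 :=
    (mul_eq_zero.mp (show (a - c) * (4 * (a ^ 2 + a * c + c ^ 2) + (W.b₂ : QBar) * (a + c)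
      + 2 * (W.b₄ : QBar)) = 0 by linear_combination ha - hc)).resolve_left hac
  have s1 : (W.b₂ : QBar) = -4 * (a + b + c) := by
    have : 4 * (a + b + c) + (W.b₂ : QBar) = 0 :=
      (mul_eq_zero.mp (show (b - c) * (4 * (a + b + c) + (W.b₂ : QBar)) = 0 by
        linear_combination e1 - e2)).resolve_left hbc
    linear_combination this
  have s2 : (W.b₄ : QBar) = 2 * (a * b + a * c + b * c) :=
    mul_left_cancel₀ two_ne_zero (by linear_combination e1 - (a + b) * s1)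
  have s3 : (W.b₆ : QBar) = -4 * (a * b * c) := by
    linear_combination ha - a ^ 2 * s1 - 2 * a * s2
  have hr : 4 * (W.b₈ : QBar) = (W.b₂ : QBar) * W.b₆ - (W.b₄ : QBar) ^ 2 := by
    exact_mod_cast W.b_relation
  rw [WeierstrassCurve.Δ]
  push_cast
  rw [show (W.b₈ : QBar) = ((W.b₂ : QBar) * W.b₆ - (W.b₄ : QBar) ^ 2) / 4 by
    linear_combination hr / 4, s1, s2, s3]
  ring

theorem m2_det_one_cases : ∀ X : M2 (ZMod 2), X.det = 1 →
    X = 1 ∨ X = !![1, 1; 0, 1] ∨ X = !![1, 0; 1, 1] ∨ X = !![0, 1; 1, 0] ∨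
      X = !![0, 1; 1, 1] ∨ X = !![1, 1; 1, 0] := by decide

theorem smul_sqrtDisc_of_involution {σ : GQ} (h1 : rhoBar W hΔ σ ≠ 1)
    (h2 : rhoBar W hΔ σ * rhoBar W hΔ σ = 1) : σ (sqrtDisc hΔ) = -sqrtDisc hΔ := by
  have h11 : (1 + 1 : ZMod 2) = 0 := by decide
  rcases m2_det_one_cases _ (rhoBar_det hΔ σ) with h | h | h | h | h | h <;> rw [h] at h1 h2
  · exact absurd rfl h1
  all_goals first
    | exact absurd h2 (by decide)
    | (simp only [sqrtDisc, map_mul, map_sub, map_ofNat, smul_twoX, h, Selmer.mulVec_two]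
       simp [h11]
       ring)

theorem smul_sqrtDisc_of_eq_one {σ : GQ} (h : rhoBar W hΔ σ = 1) :
    σ (sqrtDisc hΔ) = sqrtDisc hΔ := by
  simp only [sqrtDisc, map_mul, map_sub, map_ofNat, smul_twoX, h, Matrix.one_mulVec]

end Fermat.Agent.TwoAdic

end
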